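import Fermat.Agent.LT.H129.EllParamSpec

/-!
# Row LT, tower T6, sub-leaf T6.14b.L4 `LatOrbitUniqC129`: CLOSED, unconditional (helper75)

OFF-MAIN.  Sub-spec: `LT/H129/EllParamSpec.lean` (helper129@6c63cff25, sha256 9e6fc0e0,
byte-identical copy) on `LT/T6/H847/EllRamSpec.lean` (3578c164) and `LT/T6/Spec.lean` (89f8f8b8).

`latMat n ξ' = latMat n ξ · u` with `u` integral: the first column reads
`1 = u₀₀ - ν^(n+1) ξ u₁₀`, `ξ' = ξ u₀₀ + (1 + τ ξ) νⁿ u₁₀`, hence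
`ξ' - ξ = νⁿ u₁₀ (1 + τ ξ + ν ξ²)`, of valuation `≤ exp (-n)`.

* `latMat_det75`, `val_norm_eq_one75`, `latMat_det_ne_zero75`, `coe_latGL75` (reusable);
* `latOrbitUniq75 : LatOrbitUniqC129` (VERBATIM, registry row T6.14b.L4).
-/

set_option autoImplicit false

open scoped Matrix

noncomputable section

namespace Fermat.Agent.LT.T6.H75

open Fermat.Agent.LT.T6 Fermat.Agent.LT.T6.H847 Fermat.Agent.LT.H129

variable {k : Type} [Field k] [Valued k Γ₀]

/-- `det (x_ξ g_n) = νⁿ (1 + τ ξ + ν ξ²)`. -/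
theorem latMat_det75 {k : Type} [Field k] (τ ν : k) (n : ℕ) (ξ : k) :
    (latMat τ ν n ξ).det = ν ^ n * (1 + τ * ξ + ν * ξ ^ 2) := by
  unfold latMat
  rw [Matrix.det_fin_two_of]
  ring

/-- The norm `N(1 + ξ Π) = 1 + τ ξ + ν ξ²` of `1 + ξ Π` is a unit for `ξ` integral. -/
theorem val_norm_eq_one75 {τ ν ξ : k} (hν : Valued.v ν = WithZero.exp (-1 : ℤ))
    (hτ : Valued.v τ < 1) (hξ : Valued.v ξ ≤ 1) :
    Valued.v (1 + τ * ξ + ν * ξ ^ 2) = 1 := by
  have hν1 : Valued.v ν < 1 := by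
    rw [hν, ← WithZero.exp_zero, WithZero.exp_lt_exp]
    norm_num
  have h1 : Valued.v (τ * ξ) < 1 := by
    rw [map_mul]
    calc Valued.v τ * Valued.v ξ ≤ Valued.v τ * 1 := mul_le_mul_right hξ _
      _ = Valued.v τ := mul_one _
      _ < 1 := hτ
  have h2 : Valued.v (ν * ξ ^ 2) < 1 := by
    rw [map_mul, map_pow]
    calc Valued.v ν * Valued.v ξ ^ 2 ≤ Valued.v ν * 1 :=
          mul_le_mul_right (pow_le_one₀ zero_le hξ) _
      _ = Valued.v ν := mul_one _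
      _ < 1 := hν1
  have h3 : Valued.v (τ * ξ + ν * ξ ^ 2) < 1 :=
    lt_of_le_of_lt (Valuation.map_add _ _ _) (max_lt h1 h2)
  rw [add_assoc]
  exact Valuation.map_one_add_of_lt _ h3

theorem unif_ne_zero75 {ν : k} (hν : Valued.v ν = WithZero.exp (-1 : ℤ)) : ν ≠ 0 := by
  intro h0
  rw [h0, map_zero] at hν
  exact WithZero.exp_ne_zero hν.symm

/-- `det (x_ξ g_n) ≠ 0` for `ξ` integral. -/
theorem latMat_det_ne_zero75 {τ ν ξ : k} (hν : Valued.v ν = WithZero.exp (-1 : ℤ))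
    (hτ : Valued.v τ < 1) (hξ : Valued.v ξ ≤ 1) (n : ℕ) : (latMat τ ν n ξ).det ≠ 0 := by
  rw [latMat_det75]
  refine mul_ne_zero (pow_ne_zero _ (unif_ne_zero75 hν)) ?_
  intro h0
  have := val_norm_eq_one75 hν hτ hξ
  rw [h0, map_zero] at this
  exact zero_ne_one this

/-- The matrix of `latGL` for `ξ` integral. -/
theorem coe_latGL75 {τ ν ξ : k} (hν : Valued.v ν = WithZero.exp (-1 : ℤ))
    (hτ : Valued.v τ < 1) (hξ : Valued.v ξ ≤ 1) (n : ℕ) :
    ((latGL τ ν n ξ : GL (Fin 2) k) : Matrix (Fin 2) (Fin 2) k) = latMat τ ν n ξ := by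
  unfold latGL
  rw [dif_pos (latMat_det_ne_zero75 hν hτ hξ n)]
  rfl

/-- An element of `GL₂(𝒪)` has integral entries. -/
theorem val_entry_le_one75 {u : GL (Fin 2) k} (hu : InU 0 u) (i j : Fin 2) :
    Valued.v ((u : Matrix (Fin 2) (Fin 2) k) i j) ≤ 1 := by
  have h := (hu i j).1
  have h0 : WithZero.exp (-((0 : ℕ) : ℤ)) = (1 : Γ₀) := by simp
  rw [h0] at h
  have h1 : Valued.v ((1 : Matrix (Fin 2) (Fin 2) k) i j) ≤ 1 := by
    by_cases hij : i = j
    · subst hij; simp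
    · simp [hij]
  have e : (u : Matrix (Fin 2) (Fin 2) k) i j
      = ((u : Matrix (Fin 2) (Fin 2) k) i j - (1 : Matrix (Fin 2) (Fin 2) k) i j)
        + (1 : Matrix (Fin 2) (Fin 2) k) i j := by ring
  rw [e]
  exact le_trans (Valuation.map_add _ _ _) (max_le h h1)

/-- **T6.14b.L4** (`LatOrbitUniqC129`, VERBATIM): `latGL n ξ' ∈ latGL n ξ · GL₂(𝒪)` implies
`ξ' ≡ ξ mod νⁿ`.  Unconditional. -/
theorem latOrbitUniq75 : LatOrbitUniqC129 := by
  intro k _ _ τ ν hν hτ n ξ ξ' u hξ hξ' hu h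
  have e : latMat τ ν n ξ' = latMat τ ν n ξ * (u : Matrix (Fin 2) (Fin 2) k) := by
    have := congrArg (fun g : GL (Fin 2) k => (g : Matrix (Fin 2) (Fin 2) k)) h
    simp only [Matrix.GeneralLinearGroup.coe_mul] at this
    rw [coe_latGL75 hν hτ hξ' n, coe_latGL75 hν hτ hξ n] at this
    exact this
  have e00 := congrFun (congrFun e 0) 0
  have e10 := congrFun (congrFun e 1) 0
  rw [Matrix.mul_apply, Fin.sum_univ_two] at e00 e10
  simp only [latMat, Matrix.of_apply, Matrix.cons_val', Matrix.cons_val_zero,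
    Matrix.cons_val_one, Matrix.cons_val_fin_one] at e00 e10
  have key : ξ' - ξ
      = ν ^ n * (u : Matrix (Fin 2) (Fin 2) k) 1 0 * (1 + τ * ξ + ν * ξ ^ 2) := by
    linear_combination e10 - ξ * e00
  rw [key, map_mul, map_mul, map_pow, hν, val_norm_eq_one75 hν hτ hξ, mul_one]
  have hexp : (WithZero.exp (-1 : ℤ) : Γ₀) ^ n = WithZero.exp (-(n : ℤ)) := by
    rw [← WithZero.exp_nsmul]
    simp
  rw [hexp]
  calc WithZero.exp (-(n : ℤ)) * Valued.v ((u : Matrix (Fin 2) (Fin 2) k) 1 0)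
      ≤ WithZero.exp (-(n : ℤ)) * 1 := mul_le_mul_right (val_entry_le_one75 hu 1 0) _
    _ = WithZero.exp (-(n : ℤ)) := mul_one _

end Fermat.Agent.LT.T6.H75

end
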