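import Mathlib
import Fermat.Agent.LT.T6.Spec
import Fermat.Agent.LT.T6.SpecArch
import Fermat.Agent.LT.T6.H626.ArchCut
import Fermat.Agent.LT.T6.H189.ArchIntSpec
import Fermat.Agent.LT.T6.H781.EllSpec
import Fermat.Agent.LT.T6.H634.EllCut
import Fermat.Agent.LT.T6.H634.EllCut2

/-!
# Row LT, tower T6, leaf T6.20e.2e (`H634.EllTwC634`): THE CUT (helper75)

OFF-MAIN.  Definitions and Props only; nothing is assumed.  Byte-identical copies: `T6/Spec.lean`
v3 (8c5f2ae7), `T6/SpecArch.lean` (003240b2), `H626/ArchCut.lean` (fac998d4),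
`H189/ArchIntSpec.lean` (4ac6c090), `H781/EllSpec.lean` (3217f43c), `H634/EllCut.lean` (d96dd710),
`H634/EllCut2.lean` (07b34a13).

    (ArchIntOut → EllTwC634)  ⇐  CutIndepC75 + TorNormC75 + TwStdC75 + TorCommC75 + ProfC75
                                   + BoxCC75 + H781.EllUpC          (top: `H75/EllTwTop.lean`)

with the CORE `twEllOrbital75` (`H75/TwEll.lean`, PROVED): the twisted orbital integral at
`δ = k_{θ/2}` with the cut-off `h(log |det x|)` in Iwasawa coordinates (no Fermi coordinates).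

## Route

`γ` elliptic, `D = det γ`, `θ = thetaOf634 γ`, `δ δ̄ = γ`, `T` = centraliser of `γ` in `GL₂(ℝ)`.
1. `F(x) = φ(x⁻¹ δ x̄)` is continuous and invariant under `x ↦ t x`, `t ∈ T` (`TorCommC75`).
2. The integral `∫ F β' dμ'` is the same for all cut-off functions `β'` (`CutIndepC75`,
   unfolding; no integrability hypothesis: if one of the integrands is not integrable, none is).
3. `β₀(x) = h(log |det x| + s)` is a cut-off function if `∫ h = 1 / (π λ)`, `λ = lamT634 γ μT`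
   (`TorNormC75`: the image of `μT` under `log det` is `π λ ·` Lebesgue).
4. `δ = y δ₀ ȳ⁻¹`, `δ₀ = D^{1/4} k_{θ/2}` (`TwStdC75`); substitute `x = y x'` (left invariance).
5. `φ(D^{1/4} g) = Φ(rhoC g)` for `|det g| = 1`, `Φ = profC634 φ D` (`ProfC75`, Cartan).
6. The core `twEllOrbital75`; `EllUpC` (helper559); `μ'(boxC634) = π c` (`BoxCC75`).
-/

set_option autoImplicit false

open scoped Matrix ENNReal
open MeasureTheory

noncomputable section

namespace Fermat.Agent.LT.T6.H75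

open Fermat.Agent.LT.T6 Fermat.Agent.LT.T6.H189 Fermat.Agent.LT.T6.H634
open Fermat.Agent.LT.T6.H781

/-- **T6.20e.2e.1 (independence of the cut-off, unfolding).**  `γ` elliptic, `T` its centraliser
in `GL₂(ℝ)` with a Haar measure `μT`; `F` continuous on `GL₂(ℂ)`, invariant under left
translations by `T`; `β₁`, `β₂` cut-off functions (continuous, `≥ 0`, `∫_T β(t x) dμT(t) = 1` for
all `x`).  Then `∫ F β₁ dμ' = ∫ F β₂ dμ'` (Bochner integrals; no integrability hypothesis). -/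
def CutIndepC75 : Prop :=
  ∀ (μ' : @Measure (GL (Fin 2) ℂ) (borel _)), @Measure.IsHaarMeasure _ _ _ (borel _) μ' →
    ∀ γ : GL (Fin 2) ℝ, disc γ < 0 →
    ∀ μT : @Measure (twCentSub (MonoidHom.id (GL (Fin 2) ℝ)) γ) (borel _),
      @Measure.IsHaarMeasure _ _ _ (borel _) μT →
    ∀ F : GL (Fin 2) ℂ → ℂ, Continuous F →
      (∀ (t : twCentSub (MonoidHom.id (GL (Fin 2) ℝ)) γ) (x : GL (Fin 2) ℂ),
        F (Matrix.GeneralLinearGroup.map (algebraMap ℝ ℂ) (t : GL (Fin 2) ℝ) * x) = F x) →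
    ∀ β₁ β₂ : GL (Fin 2) ℂ → ℝ,
      Continuous β₁ → (∀ x, 0 ≤ β₁ x) →
      (∀ x : GL (Fin 2) ℂ,
        @integral _ _ _ _ (borel _) μT
          (fun t : twCentSub (MonoidHom.id (GL (Fin 2) ℝ)) γ =>
            β₁ (Matrix.GeneralLinearGroup.map (algebraMap ℝ ℂ) (t : GL (Fin 2) ℝ) * x)) = 1) →
      Continuous β₂ → (∀ x, 0 ≤ β₂ x) →
      (∀ x : GL (Fin 2) ℂ,
        @integral _ _ _ _ (borel _) μT
          (fun t : twCentSub (MonoidHom.id (GL (Fin 2) ℝ)) γ =>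
            β₂ (Matrix.GeneralLinearGroup.map (algebraMap ℝ ℂ) (t : GL (Fin 2) ℝ) * x)) = 1) →
      @integral _ _ _ _ (borel _) μ' (fun x : GL (Fin 2) ℂ => F x * (β₁ x : ℂ))
        = @integral _ _ _ _ (borel _) μ' (fun x : GL (Fin 2) ℂ => F x * (β₂ x : ℂ))

/-- **T6.20e.2e.2 (normalisation of the Haar measure of the elliptic torus).**  `γ` elliptic,
`μT` a Haar measure of its centraliser `T`, `λ = lamT634 γ μT = μT {1 ≤ det ≤ e²} / (2π)`.  Then
`λ > 0` and the image of `μT` under `t ↦ log det t` is `π λ` times the Lebesgue measure: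
`∫_T h(log det t + s) dμT(t) = π λ ∫ h`. -/
def TorNormC75 : Prop :=
  ∀ γ : GL (Fin 2) ℝ, disc γ < 0 →
    ∀ μT : @Measure (twCentSub (MonoidHom.id (GL (Fin 2) ℝ)) γ) (borel _),
      @Measure.IsHaarMeasure _ _ _ (borel _) μT →
      0 < lamT634 γ μT ∧
      ∀ h : ℝ → ℝ, Continuous h → HasCompactSupport h → ∀ s : ℝ,
        @integral _ _ _ _ (borel _) μT
          (fun t : twCentSub (MonoidHom.id (GL (Fin 2) ℝ)) γ =>
            h (Real.log ((t : GL (Fin 2) ℝ) : Matrix (Fin 2) (Fin 2) ℝ).det + s))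
          = Real.pi * lamT634 γ μT * ∫ y : ℝ, h y

/-- **T6.20e.2e.3 (the standard representative of the twisted conjugacy class).**  If
`δ δ̄ = γ` with `γ ∈ GL₂(ℝ)` elliptic, `D = det γ`, `θ = thetaOf634 γ`, then `δ` is twisted
conjugate to `δ₀ = D^{1/4} k_{θ/2}`: `y⁻¹ δ ȳ = δ₀` for some `y ∈ GL₂(ℂ)`. -/
def TwStdC75 : Prop :=
  ∀ γ : GL (Fin 2) ℝ, disc γ < 0 →
    ∀ δ : GL (Fin 2) ℂ,
      twNorm (starRingAut : ℂ ≃+* ℂ) 2 δ = Matrix.GeneralLinearGroup.map (algebraMap ℝ ℂ) γ →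
      ∃ y : GL (Fin 2) ℂ,
        y⁻¹ * δ * glAut (starRingAut : ℂ ≃+* ℂ) y
          = sclC (Real.log (γ : Matrix (Fin 2) (Fin 2) ℝ).det / 4) *
              Matrix.GeneralLinearGroup.map (algebraMap ℝ ℂ) (rotR (thetaOf634 γ / 2))

/-- **T6.20e.2e.4 (the torus commutes with `δ`).**  If `δ δ̄ = γ` with `γ ∈ GL₂(ℝ)` elliptic,
every `t` in the centraliser of `γ` in `GL₂(ℝ)` commutes with `δ`. -/
def TorCommC75 : Prop :=
  ∀ γ : GL (Fin 2) ℝ, disc γ < 0 →
    ∀ δ : GL (Fin 2) ℂ,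
      twNorm (starRingAut : ℂ ≃+* ℂ) 2 δ = Matrix.GeneralLinearGroup.map (algebraMap ℝ ℂ) γ →
      ∀ t : twCentSub (MonoidHom.id (GL (Fin 2) ℝ)) γ,
        Matrix.GeneralLinearGroup.map (algebraMap ℝ ℂ) (t : GL (Fin 2) ℝ) * δ
          = δ * Matrix.GeneralLinearGroup.map (algebraMap ℝ ℂ) (t : GL (Fin 2) ℝ)

/-- **T6.20e.2e.5 (the radial profile of a test function, Cartan decomposition).**  For a
bi-`U(2)`-invariant test function `φ` and `D > 0`: `profC634 φ D` is a profile and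
`φ(D^{1/4} g) = profC634 φ D (rhoC g)` for all `g` with `|det g| = 1`. -/
def ProfC75 : Prop :=
  ∀ φ : GL (Fin 2) ℂ → ℂ, IsArchTestC φ → ∀ D : ℝ, 0 < D →
    IsProfile (profC634 φ D) ∧
    ∀ g : GL (Fin 2) ℂ, ‖(g : Matrix (Fin 2) (Fin 2) ℂ).det‖ = 1 →
      φ (sclC (Real.log D / 4) * g) = profC634 φ D (rhoC g)

/-- **T6.20e.2e.6 (the measure of the Iwasawa unit box of `GL₂(ℂ)`).**  If
`μ' = c • (iwaC)_* (du₁ du₂ dw dκ)` then `μ' (boxC634) = π c`. -/
def BoxCC75 : Prop :=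
  ∀ κ : @Measure (GL (Fin 2) ℂ) (borel _), IsU2Haar κ →
  ∀ (μ' : @Measure (GL (Fin 2) ℂ) (borel _)) (c : ℝ≥0∞),
    μ' = c • @Measure.map _ _
        (@Prod.instMeasurableSpace _ _ _ (@Prod.instMeasurableSpace _ _ _
          (@Prod.instMeasurableSpace _ _ _ (borel _)))) (borel _) iwaC (iwaMC κ) →
    μ' boxC634 = c * ENNReal.ofReal Real.pi

/-- **The formal top of the cut** (proved in `H75/EllTwTop.lean`). -/
def EllTwTopC75 : Prop :=
  CutIndepC75 → TorNormC75 → TwStdC75 → TorCommC75 → ProfC75 → BoxCC75 → EllUpC →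
    ArchIntOut → EllTwC634

end Fermat.Agent.LT.T6.H75

end
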