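import Mathlib
import Fermat.Agent.LT.T6.Spec
import Fermat.Agent.LT.T6.H296.CutoffExC
import Fermat.Agent.LT.T6.H972.RightInvR
import Fermat.Agent.LT.T6.H8.Unimod

/-!
# Row LT, tower T6: the centraliser of an elliptic element of `GL₂(ℝ)` as a measured group
(helper75)

OFF-MAIN.  No hole.  For `γ ∈ GL₂(ℝ)` with `disc γ ≠ 0` and `T = twCentSub id γ` (Borel
σ-algebra): `T` is commutative, second countable, locally compact; every Haar measure of `T` is
σ-finite, right invariant and inversion invariant.  Assets used (byte-identical copies):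
helper296 `H296/Cutoff*.lean`, helper972 `H972/RightInvR.lean`, helper8 `H8/Unimod.lean`.
-/

set_option autoImplicit false
set_option linter.style.haveILetI false

open MeasureTheory

noncomputable section

namespace Fermat.Agent.LT.T6.H75

open Fermat.Agent.LT.T6

/-- The centraliser of a regular element of `GL₂(ℝ)` is commutative. -/
theorem torus_comm75 (γ : GL (Fin 2) ℝ) (hdisc : disc γ ≠ 0)
    (s t : twCentSub (MonoidHom.id (GL (Fin 2) ℝ)) γ) : s * t = t * s := by
  have hD : H296.qd296 (γ : Matrix (Fin 2) (Fin 2) ℝ) ≠ 0 := by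
    unfold disc at hdisc
    unfold H296.qd296
    exact div_ne_zero hdisc (by norm_num)
  apply Subtype.ext
  exact H296.cent_comm296 _ hD s t ((H296.mem_twCentSub_id296 γ s).mp s.2)
    ((H296.mem_twCentSub_id296 γ t).mp t.2)

theorem secondCountable_torus75 (γ : GL (Fin 2) ℝ) :
    SecondCountableTopology (twCentSub (MonoidHom.id (GL (Fin 2) ℝ)) γ) := by
  haveI := H972.secondCountable_GL2R972
  exact TopologicalSpace.Subtype.secondCountableTopology _

theorem locallyCompact_torus75 (γ : GL (Fin 2) ℝ) :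
    LocallyCompactSpace (twCentSub (MonoidHom.id (GL (Fin 2) ℝ)) γ) := by
  haveI := H972.locallyCompactSpace_GL2R972
  exact (H296.isClosed_twCentSub_id296 γ).locallyCompactSpace

/-- Every Haar measure of the torus is σ-finite. -/
theorem sigmaFinite_torus75 (γ : GL (Fin 2) ℝ)
    (μT : @Measure (twCentSub (MonoidHom.id (GL (Fin 2) ℝ)) γ) (borel _))
    (hμT : @Measure.IsHaarMeasure _ _ _ (borel _) μT) :
    @SigmaFinite _ (borel _) μT := by
  letI : MeasurableSpace (twCentSub (MonoidHom.id (GL (Fin 2) ℝ)) γ) := borel _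
  haveI : BorelSpace (twCentSub (MonoidHom.id (GL (Fin 2) ℝ)) γ) := ⟨rfl⟩
  haveI := secondCountable_torus75 γ
  haveI := locallyCompact_torus75 γ
  haveI : μT.IsHaarMeasure := hμT
  infer_instance

/-- Every Haar measure of the torus is inversion invariant. -/
theorem invInvariant_torus75 (γ : GL (Fin 2) ℝ) (hdisc : disc γ ≠ 0)
    (μT : @Measure (twCentSub (MonoidHom.id (GL (Fin 2) ℝ)) γ) (borel _))
    (hμT : @Measure.IsHaarMeasure _ _ _ (borel _) μT) :
    @Measure.IsInvInvariant _ (borel _) _ μT := by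
  letI : MeasurableSpace (twCentSub (MonoidHom.id (GL (Fin 2) ℝ)) γ) := borel _
  haveI : BorelSpace (twCentSub (MonoidHom.id (GL (Fin 2) ℝ)) γ) := ⟨rfl⟩
  haveI := secondCountable_torus75 γ
  haveI := locallyCompact_torus75 γ
  haveI : μT.IsHaarMeasure := hμT
  haveI : μT.IsMulRightInvariant := by
    constructor
    intro g
    have e : (fun x : twCentSub (MonoidHom.id (GL (Fin 2) ℝ)) γ => x * g) = fun x => g * x := by
      funext x
      exact torus_comm75 γ hdisc x g
    rw [e]
    exact map_mul_left_eq_self μT g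
  exact ⟨H972.map_inv_eq_self_of_rightInv972 μT⟩

/-- Every Haar measure of `GL₂(ℂ)` is σ-finite. -/
theorem sigmaFinite_GL2C75 (μ' : @Measure (GL (Fin 2) ℂ) (borel _))
    (hμ' : @Measure.IsHaarMeasure _ _ _ (borel _) μ') : @SigmaFinite _ (borel _) μ' := by
  letI : MeasurableSpace (GL (Fin 2) ℂ) := borel _
  haveI : BorelSpace (GL (Fin 2) ℂ) := ⟨rfl⟩
  haveI := H8.secondCountableTopology_GL2C8
  haveI := H8.locallyCompactSpace_GL2C8
  haveI : μ'.IsHaarMeasure := hμ'
  infer_instance

/-- The inclusion of the torus in `GL₂(ℂ)`. -/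
def torIncl75 (γ : GL (Fin 2) ℝ) :
    twCentSub (MonoidHom.id (GL (Fin 2) ℝ)) γ →* GL (Fin 2) ℂ :=
  (Matrix.GeneralLinearGroup.map (algebraMap ℝ ℂ)).comp (Subgroup.subtype _)

theorem torIncl_apply75 (γ : GL (Fin 2) ℝ) (t : twCentSub (MonoidHom.id (GL (Fin 2) ℝ)) γ) :
    torIncl75 γ t = Matrix.GeneralLinearGroup.map (algebraMap ℝ ℂ) (t : GL (Fin 2) ℝ) := rfl

theorem continuous_mapRC75 :
    Continuous (Matrix.GeneralLinearGroup.map (algebraMap ℝ ℂ) :
      GL (Fin 2) ℝ → GL (Fin 2) ℂ) := by
  unfold Matrix.GeneralLinearGroup.map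
  apply Continuous.units_map
  exact Continuous.matrix_map continuous_id Complex.continuous_ofReal

theorem continuous_torIncl75 (γ : GL (Fin 2) ℝ) : Continuous (torIncl75 γ) :=
  continuous_mapRC75.comp continuous_subtype_val

/-- The action map `(t, x) ↦ t x` is measurable for the product of the Borel σ-algebras. -/
theorem measurable_torAct75 (γ : GL (Fin 2) ℝ) :
    @Measurable _ _ (@Prod.instMeasurableSpace _ _ (borel _) (borel _)) (borel _)
      (fun p : twCentSub (MonoidHom.id (GL (Fin 2) ℝ)) γ × GL (Fin 2) ℂ =>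
        torIncl75 γ p.1 * p.2) := by
  letI : MeasurableSpace (GL (Fin 2) ℂ) := borel _
  haveI : BorelSpace (GL (Fin 2) ℂ) := ⟨rfl⟩
  letI : MeasurableSpace (twCentSub (MonoidHom.id (GL (Fin 2) ℝ)) γ) := borel _
  haveI : BorelSpace (twCentSub (MonoidHom.id (GL (Fin 2) ℝ)) γ) := ⟨rfl⟩
  haveI := H8.secondCountableTopology_GL2C8
  haveI := secondCountable_torus75 γ
  have hc : Continuous (fun p : twCentSub (MonoidHom.id (GL (Fin 2) ℝ)) γ × GL (Fin 2) ℂ =>
      torIncl75 γ p.1 * p.2) :=
    ((continuous_torIncl75 γ).comp continuous_fst).mul continuous_snd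
  exact hc.measurable

end Fermat.Agent.LT.T6.H75

end
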