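import Mathlib

/-!
# Row LT, tower T6: UNFOLDING, independence of the cut-off function (helper75)

OFF-MAIN.  Mathlib only.  No hole.

`unfold_cutoff75`: `G`, `H` groups with measures `μ` (left invariant) and `ν` (inversion
invariant), both s-finite; `j : H →* G` with `(t, x) ↦ j t * x` measurable; `F` measurable on `G`
with `F (j t * x) = F x`; `β₁`, `β₂ ≥ 0` measurable with `∫ β (j t * x) dν(t) = 1` for all `x`.
Then `∫ F β₁ dμ = ∫ F β₂ dμ` (Bochner integrals, NO integrability hypothesis: if one of the two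
integrands is not integrable, neither is the other).

Proof: `f (t, x) = F x β₁ x β₂ (j t x)` on `H × G`; its integral over `ν ⊗ μ` is `∫ F β₁ dμ`
(`unfold_aux75`); the map `(t, x) ↦ (t⁻¹, j t x)` preserves `ν ⊗ μ` and exchanges `β₁` and `β₂`.
-/

set_option autoImplicit false

open MeasureTheory

noncomputable section

namespace Fermat.Agent.LT.T6.H75

variable {G H : Type*} [Group G] [Group H] [MeasurableSpace G] [MeasurableSpace H]

omit [Group H] in
/-- The double integral of `F(x) β(x) γ(j(t) x)` is `∫ F β` if `∫ γ(j(t) x) dν(t) = 1`. -/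
theorem unfold_aux75 (μ : Measure G) [SFinite μ] (ν : Measure H) [SFinite ν]
    (j : H → G) (hj : Measurable (fun p : H × G => j p.1 * p.2))
    (F : G → ℂ) (hF : Measurable F) (β γ : G → ℝ) (hβm : Measurable β) (hγm : Measurable γ)
    (hγ0 : ∀ x, 0 ≤ γ x) (hγ : ∀ x, ∫ t, γ (j t * x) ∂ν = 1) :
    ∫ p : H × G, F p.2 * (β p.2 : ℂ) * (γ (j p.1 * p.2) : ℂ) ∂(ν.prod μ)
      = ∫ x, F x * (β x : ℂ) ∂μ := by
  set f : H × G → ℂ := fun p => F p.2 * (β p.2 : ℂ) * (γ (j p.1 * p.2) : ℂ) with hf
  have hfm : Measurable f := by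
    have h1 : Measurable (fun p : H × G => F p.2) := hF.comp measurable_snd
    have h2 : Measurable (fun p : H × G => (β p.2 : ℂ)) :=
      Complex.measurable_ofReal.comp (hβm.comp measurable_snd)
    have h3 : Measurable (fun p : H × G => (γ (j p.1 * p.2) : ℂ)) :=
      Complex.measurable_ofReal.comp (hγm.comp hj)
    exact (h1.mul h2).mul h3
  have hgm : Measurable (fun x => F x * (β x : ℂ)) :=
    hF.mul (Complex.measurable_ofReal.comp hβm)
  -- the fibre integrals
  have hint : ∀ x, Integrable (fun t => γ (j t * x)) ν := by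
    intro x
    by_contra h
    have := integral_undef h
    rw [hγ x] at this
    exact one_ne_zero this
  have hfib : ∀ x, Integrable (fun t => f (t, x)) ν := by
    intro x
    exact (hint x).ofReal.const_mul (F x * (β x : ℂ))
  have hnorm : ∀ x, ∫ t, ‖f (t, x)‖ ∂ν = ‖F x * (β x : ℂ)‖ := by
    intro x
    have e : (fun t => ‖f (t, x)‖) = fun t => ‖F x * (β x : ℂ)‖ * γ (j t * x) := by
      funext t
      simp only [hf]
      rw [norm_mul, Complex.norm_real, Real.norm_eq_abs, abs_of_nonneg (hγ0 _)]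
    rw [e, integral_const_mul, hγ x, mul_one]
  have hval : ∀ x, ∫ t, f (t, x) ∂ν = F x * (β x : ℂ) := by
    intro x
    have e : (fun t => f (t, x)) = fun t => F x * (β x : ℂ) * ((γ (j t * x) : ℝ) : ℂ) := rfl
    rw [e, integral_const_mul, integral_complex_ofReal, hγ x, Complex.ofReal_one, mul_one]
  have hiff : Integrable f (ν.prod μ) ↔ Integrable (fun x => F x * (β x : ℂ)) μ := by
    rw [integrable_prod_iff' hfm.aestronglyMeasurable]
    simp only [hnorm]
    constructor
    · rintro ⟨_, h2⟩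
      exact (integrable_norm_iff hgm.aestronglyMeasurable).mp h2
    · intro h
      exact ⟨Filter.Eventually.of_forall hfib, h.norm⟩
  by_cases hI : Integrable (fun x => F x * (β x : ℂ)) μ
  · rw [integral_prod_symm f (hiff.mpr hI)]
    simp only [hval]
  · rw [integral_undef hI, integral_undef (fun h => hI (hiff.mp h))]

/-- **Unfolding: independence of the cut-off function.** -/
theorem unfold_cutoff75 [MeasurableMul G] [MeasurableInv H]
    (μ : Measure G) [SFinite μ] [μ.IsMulLeftInvariant]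
    (ν : Measure H) [SFinite ν] [ν.IsInvInvariant]
    (j : H →* G) (hj : Measurable (fun p : H × G => j p.1 * p.2))
    (F : G → ℂ) (hF : Measurable F) (hFinv : ∀ t x, F (j t * x) = F x)
    (β₁ β₂ : G → ℝ)
    (hβ₁m : Measurable β₁) (hβ₁0 : ∀ x, 0 ≤ β₁ x) (hβ₁ : ∀ x, ∫ t, β₁ (j t * x) ∂ν = 1)
    (hβ₂m : Measurable β₂) (hβ₂0 : ∀ x, 0 ≤ β₂ x) (hβ₂ : ∀ x, ∫ t, β₂ (j t * x) ∂ν = 1) :
    ∫ x, F x * (β₁ x : ℂ) ∂μ = ∫ x, F x * (β₂ x : ℂ) ∂μ := by
  rw [← unfold_aux75 μ ν j hj F hF β₁ β₂ hβ₁m hβ₂m hβ₂0 hβ₂,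
    ← unfold_aux75 μ ν j hj F hF β₂ β₁ hβ₂m hβ₁m hβ₁0 hβ₁]
  -- the measure preserving involution
  have hS1 : MeasurePreserving (fun p : H × G => (p.1, j p.1 * p.2)) (ν.prod μ) (ν.prod μ) :=
    MeasurePreserving.skew_product (f := id) (MeasurePreserving.id ν)
      (g := fun t x => j t * x) hj
      (Filter.Eventually.of_forall fun t => map_mul_left_eq_self μ (j t))
  have hS2 : MeasurePreserving (Prod.map (Inv.inv : H → H) (id : G → G)) (ν.prod μ) (ν.prod μ) :=
    (Measure.measurePreserving_inv ν).prod (MeasurePreserving.id μ)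
  have hΨ : MeasurePreserving (fun p : H × G => (p.1⁻¹, j p.1 * p.2)) (ν.prod μ) (ν.prod μ) :=
    hS2.comp hS1
  set f : H × G → ℂ := fun p => F p.2 * (β₁ p.2 : ℂ) * (β₂ (j p.1 * p.2) : ℂ) with hf
  have hfm : Measurable f := by
    have h1 : Measurable (fun p : H × G => F p.2) := hF.comp measurable_snd
    have h2 : Measurable (fun p : H × G => (β₁ p.2 : ℂ)) :=
      Complex.measurable_ofReal.comp (hβ₁m.comp measurable_snd)
    have h3 : Measurable (fun p : H × G => (β₂ (j p.1 * p.2) : ℂ)) :=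
      Complex.measurable_ofReal.comp (hβ₂m.comp hj)
    exact (h1.mul h2).mul h3
  have h1 := integral_map hΨ.measurable.aemeasurable
    (hfm.aestronglyMeasurable (μ := Measure.map (fun p : H × G => (p.1⁻¹, j p.1 * p.2))
      (ν.prod μ)))
  rw [hΨ.map_eq] at h1
  rw [h1]
  congr 1
  funext p
  simp only [hf]
  rw [hFinv, map_inv, inv_mul_cancel_left]
  ring

end Fermat.Agent.LT.T6.H75

end
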