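import Mathlib
import Fermat.Agent.LT.T6.H75.Unfold
import Fermat.Agent.LT.T6.H75.TorusTop
import Fermat.Agent.LT.T6.H75.EllTwSpec

/-!
# Row LT, tower T6, leaf T6.20e.2e.1 `CutIndepC75` (SPARE of the owner of the cut, helper75)

OFF-MAIN.  No hole.  `cutIndepC75 : CutIndepC75` VERBATIM, unconditional: the general unfolding
lemma `unfold_cutoff75` (`H75/Unfold.lean`, Mathlib only) for `G = GL₂(ℂ)`, `H` = the centraliser
of an elliptic `γ` in `GL₂(ℝ)` (`H75/TorusTop.lean`).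
-/

set_option autoImplicit false
set_option linter.style.haveILetI false

open MeasureTheory

noncomputable section

namespace Fermat.Agent.LT.T6.H75

open Fermat.Agent.LT.T6

/-- **T6.20e.2e.1: independence of the cut-off.** -/
theorem cutIndepC75 : CutIndepC75 := by
  intro μ' hμ' γ hdisc μT hμT F hFc hFinv β₁ β₂ hβ₁c hβ₁0 hβ₁1 hβ₂c hβ₂0 hβ₂1
  letI : MeasurableSpace (GL (Fin 2) ℂ) := borel _
  haveI : BorelSpace (GL (Fin 2) ℂ) := ⟨rfl⟩
  letI : MeasurableSpace (twCentSub (MonoidHom.id (GL (Fin 2) ℝ)) γ) := borel _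
  haveI : BorelSpace (twCentSub (MonoidHom.id (GL (Fin 2) ℝ)) γ) := ⟨rfl⟩
  haveI : μ'.IsHaarMeasure := hμ'
  haveI : μT.IsHaarMeasure := hμT
  haveI : SigmaFinite μ' := sigmaFinite_GL2C75 μ' hμ'
  haveI : SigmaFinite μT := sigmaFinite_torus75 γ μT hμT
  haveI : μT.IsInvInvariant := invInvariant_torus75 γ hdisc.ne μT hμT
  exact unfold_cutoff75 μ' μT (torIncl75 γ) (measurable_torAct75 γ) F hFc.measurable hFinv
    β₁ β₂ hβ₁c.measurable hβ₁0 hβ₁1 hβ₂c.measurable hβ₂0 hβ₂1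

end Fermat.Agent.LT.T6.H75

end
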