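import Mathlib
import Fermat.Agent.LT.T6.Spec
import Fermat.Agent.LT.T6.SpecArch
import Fermat.Agent.LT.T6.H189.ArchIntSpec

/-!
# Row LT, tower T6, P7 (archimedean matching `ℂ/ℝ`), leaf T6.26: the twisted elliptic orbit in
Iwasawa coordinates — MATRIX ALGEBRA (helper75), OFF-MAIN

Vocabulary: `LT/T6/Spec.lean` (v3, `glAut`), `LT/T6/SpecArch.lean` (`rhoC`, `InU2`),
`LT/T6/H189/ArchIntSpec.lean` (`dgC`, `unC`, `rotR`), byte-identical copies.

THE EIGENBASIS TRICK.  `g₀ = (1/√2) !![1, 1; -i, i] ∈ U(2)` diagonalises the rotations: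
`k_θ g₀ = g₀ diag(e^{iθ}, e^{-iθ})`, and `conj g₀ = g₀ w₀`, `w₀ = !![0, 1; 1, 0]`.  For
`y = g₀ · diag(e^{u₁}, e^{u₂}) · n(w)` and `δ = k_{a/2}`:

    y⁻¹ δ ȳ = !![-w λ', λ - |w|² λ'; λ', w̄ λ'],   λ = e^{u₂ - u₁} e^{ia/2},  λ' = λ⁻¹,

of determinant `-1`, and
`rhoC (y⁻¹ δ ȳ) = (e^{-2v} + e^{2v} (1 + |w|²)²) / 2 - |w|² cos a`, `v = u₁ - u₂`
(`twEll_rhoC75`).  Together with the unitary invariance of `rhoC` (`rhoC_unitary75`) this gives the
value of a bi-`U(2)`-invariant function on the twisted orbit of `δ` at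
`x = g₀ · diag · n(w) · k`, `k ∈ U(2)` (`twEll_rhoC_full75`).
-/

set_option autoImplicit false
set_option linter.unusedSimpArgs false

open scoped Matrix

noncomputable section

namespace Fermat.Agent.LT.T6.H75

open Fermat.Agent.LT.T6 Fermat.Agent.LT.T6.H189

/-- The radial coordinate of the twisted elliptic orbit in Iwasawa coordinates:
`ρ(v, t) = (e^{-2v} + e^{2v} (1 + t)²) / 2 - t cos a`. -/
def twRho75 (a v t : ℝ) : ℝ :=
  (Real.exp (-(2 * v)) + Real.exp (2 * v) * (1 + t) ^ 2) / 2 - t * Real.cos a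

/-- The rotation `k_θ` as an element of `GL₂(ℂ)`. -/
def rotC75 (θ : ℝ) : GL (Fin 2) ℂ := Matrix.GeneralLinearGroup.map (algebraMap ℝ ℂ) (rotR θ)

theorem coe_rotC75 (θ : ℝ) :
    ((rotC75 θ : GL (Fin 2) ℂ) : Matrix (Fin 2) (Fin 2) ℂ)
      = !![(Real.cos θ : ℂ), -(Real.sin θ : ℂ); (Real.sin θ : ℂ), (Real.cos θ : ℂ)] := by
  ext i j
  fin_cases i <;> fin_cases j <;> simp [rotC75, rotR]

/-- `1/√2` as a complex number. -/
def isq75 : ℂ := (((Real.sqrt 2)⁻¹ : ℝ) : ℂ)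

theorem isq_mul_self75 : isq75 * isq75 = 1 / 2 := by
  unfold isq75
  rw [← Complex.ofReal_mul, ← sq, inv_pow, Real.sq_sqrt (by norm_num : (0 : ℝ) ≤ 2)]
  push_cast
  ring

theorem conj_isq75 : (starRingEnd ℂ) isq75 = isq75 := by
  unfold isq75
  exact Complex.conj_ofReal _

theorem star_isq75 : star isq75 = isq75 := conj_isq75

/-- The matrix `g₀ = (1/√2) !![1, 1; -i, i]`. -/
def g0Mat75 : Matrix (Fin 2) (Fin 2) ℂ :=
  !![isq75, isq75; -(Complex.I * isq75), Complex.I * isq75]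

theorem g0Mat_det75 : g0Mat75.det = Complex.I := by
  unfold g0Mat75
  rw [Matrix.det_fin_two_of]
  have h := isq_mul_self75
  linear_combination (2 * Complex.I) * h

/-- `g₀` as an element of `GL₂(ℂ)`. -/
def g0GL75 : GL (Fin 2) ℂ :=
  Matrix.GeneralLinearGroup.mkOfDetNeZero g0Mat75 (by rw [g0Mat_det75]; exact Complex.I_ne_zero)

theorem coe_g0GL75 : ((g0GL75 : GL (Fin 2) ℂ) : Matrix (Fin 2) (Fin 2) ℂ) = g0Mat75 := rfl

/-- `g₀` is unitary. -/
theorem inU2_g0GL75 : InU2 g0GL75 := by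
  unfold InU2
  rw [coe_g0GL75]
  have h := isq_mul_self75
  have hI := Complex.I_mul_I
  ext i j
  fin_cases i <;> fin_cases j <;>
    simp [g0Mat75, Matrix.mul_apply, Fin.sum_univ_two, Matrix.conjTranspose_apply, conj_isq75]
  · linear_combination (2 : ℂ) * h
  · linear_combination (-2 * isq75 * isq75) * hI + 2 * h

/-! ## The twisted orbit in Iwasawa coordinates -/

theorem coe_dgC75 (u₁ u₂ : ℝ) :
    ((dgC u₁ u₂ : GL (Fin 2) ℂ) : Matrix (Fin 2) (Fin 2) ℂ)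
      = !![(Real.exp u₁ : ℂ), 0; 0, (Real.exp u₂ : ℂ)] := rfl

theorem coe_unC75 (w : ℂ) :
    ((unC w : GL (Fin 2) ℂ) : Matrix (Fin 2) (Fin 2) ℂ) = !![1, w; 0, 1] := rfl

/-- The complex conjugation of `GL₂(ℂ)`. -/
def conjGL75 : GL (Fin 2) ℂ →* GL (Fin 2) ℂ := glAut (starRingAut : ℂ ≃+* ℂ)

theorem coe_conjGL75 (x : GL (Fin 2) ℂ) (i j : Fin 2) :
    ((conjGL75 x : GL (Fin 2) ℂ) : Matrix (Fin 2) (Fin 2) ℂ) i j
      = (starRingEnd ℂ) ((x : Matrix (Fin 2) (Fin 2) ℂ) i j) := rfl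

/-- The point `y = g₀ · diag(e^{u₁}, e^{u₂}) · n(w)`. -/
def twPt75 (u₁ u₂ : ℝ) (w : ℂ) : GL (Fin 2) ℂ := g0GL75 * dgC u₁ u₂ * unC w

theorem coe_twPt75 (u₁ u₂ : ℝ) (w : ℂ) :
    ((twPt75 u₁ u₂ w : GL (Fin 2) ℂ) : Matrix (Fin 2) (Fin 2) ℂ)
      = !![isq75 * (Real.exp u₁ : ℂ), isq75 * ((Real.exp u₁ : ℂ) * w + (Real.exp u₂ : ℂ));
           -(Complex.I * isq75 * (Real.exp u₁ : ℂ)),
           Complex.I * isq75 * ((Real.exp u₂ : ℂ) - (Real.exp u₁ : ℂ) * w)] := by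
  unfold twPt75
  rw [Matrix.GeneralLinearGroup.coe_mul, Matrix.GeneralLinearGroup.coe_mul, coe_g0GL75,
    coe_dgC75, coe_unC75]
  ext i j
  fin_cases i <;> fin_cases j <;>
    simp [g0Mat75, Matrix.mul_apply, Fin.sum_univ_two] <;> ring

/-- The matrix of `y⁻¹ k_{a/2} ȳ`. -/
def twMat75 (a u₁ u₂ : ℝ) (w : ℂ) : Matrix (Fin 2) (Fin 2) ℂ :=
  !![-(w * ((Real.exp (u₁ - u₂) : ℂ) * ((Real.cos (a / 2) : ℂ) - Complex.I * (Real.sin (a / 2) : ℂ)))),
     (Real.exp (u₂ - u₁) : ℂ) * ((Real.cos (a / 2) : ℂ) + Complex.I * (Real.sin (a / 2) : ℂ))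
       - w * (starRingEnd ℂ) w * ((Real.exp (u₁ - u₂) : ℂ)
          * ((Real.cos (a / 2) : ℂ) - Complex.I * (Real.sin (a / 2) : ℂ)));
     (Real.exp (u₁ - u₂) : ℂ) * ((Real.cos (a / 2) : ℂ) - Complex.I * (Real.sin (a / 2) : ℂ)),
     (starRingEnd ℂ) w * ((Real.exp (u₁ - u₂) : ℂ)
          * ((Real.cos (a / 2) : ℂ) - Complex.I * (Real.sin (a / 2) : ℂ)))]

theorem exp_rel75 (u₁ u₂ : ℝ) :
    (Real.exp u₁ : ℂ) * (Real.exp (u₂ - u₁) : ℂ) = (Real.exp u₂ : ℂ) := by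
  rw [← Complex.ofReal_mul, ← Real.exp_add]
  congr 2
  ring

/-- The generic matrix identity behind `twPt_mul_twMat75`. -/
theorem twGeneric75 (A₁ A₂ p q cs sn w wb r : ℂ) (hA : A₁ * p = A₂) (hB : A₂ * q = A₁) :
    !![r * A₁, r * (A₁ * w + A₂); -(Complex.I * r * A₁), Complex.I * r * (A₂ - A₁ * w)]
      * !![-(w * (q * (cs - Complex.I * sn))),
           p * (cs + Complex.I * sn) - w * wb * (q * (cs - Complex.I * sn));
           q * (cs - Complex.I * sn), wb * (q * (cs - Complex.I * sn))]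
      = !![cs, -sn; sn, cs]
        * !![r * A₁, r * (A₁ * wb + A₂); Complex.I * r * A₁,
             -(Complex.I * r * (A₂ - A₁ * wb))] := by
  have hI := Complex.I_mul_I
  ext i j
  fin_cases i <;> fin_cases j
  · simp only [Matrix.mul_apply, Fin.sum_univ_two, Matrix.of_apply, Matrix.cons_val',
      Matrix.cons_val_zero, Matrix.cons_val_one, Matrix.cons_val_fin_one, Fin.zero_eta,
      Fin.mk_one, Fin.isValue]
    linear_combination (r * (cs - Complex.I * sn)) * hB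
  · simp only [Matrix.mul_apply, Fin.sum_univ_two, Matrix.of_apply, Matrix.cons_val',
      Matrix.cons_val_zero, Matrix.cons_val_one, Matrix.cons_val_fin_one, Fin.zero_eta,
      Fin.mk_one, Fin.isValue]
    linear_combination (r * (cs + Complex.I * sn)) * hA + (r * wb * (cs - Complex.I * sn)) * hB
  · simp only [Matrix.mul_apply, Fin.sum_univ_two, Matrix.of_apply, Matrix.cons_val',
      Matrix.cons_val_zero, Matrix.cons_val_one, Matrix.cons_val_fin_one, Fin.zero_eta,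
      Fin.mk_one, Fin.isValue]
    linear_combination (Complex.I * r * (cs - Complex.I * sn)) * hB + (-(r * A₁ * sn)) * hI
  · simp only [Matrix.mul_apply, Fin.sum_univ_two, Matrix.of_apply, Matrix.cons_val',
      Matrix.cons_val_zero, Matrix.cons_val_one, Matrix.cons_val_fin_one, Fin.zero_eta,
      Fin.mk_one, Fin.isValue]
    linear_combination (-(Complex.I * r * (cs + Complex.I * sn))) * hA
      + (Complex.I * r * wb * (cs - Complex.I * sn)) * hB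
      + (-(r * A₁ * sn * wb + r * sn * A₂)) * hI

/-- `y · M = k_{a/2} · ȳ`. -/
theorem twPt_mul_twMat75 (a u₁ u₂ : ℝ) (w : ℂ) :
    ((twPt75 u₁ u₂ w : GL (Fin 2) ℂ) : Matrix (Fin 2) (Fin 2) ℂ) * twMat75 a u₁ u₂ w
      = ((rotC75 (a / 2) : GL (Fin 2) ℂ) : Matrix (Fin 2) (Fin 2) ℂ)
        * ((conjGL75 (twPt75 u₁ u₂ w) : GL (Fin 2) ℂ) : Matrix (Fin 2) (Fin 2) ℂ) := by
  have hA := exp_rel75 u₁ u₂
  have hB := exp_rel75 u₂ u₁
  have hc : ((conjGL75 (twPt75 u₁ u₂ w) : GL (Fin 2) ℂ) : Matrix (Fin 2) (Fin 2) ℂ)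
      = !![isq75 * (Real.exp u₁ : ℂ),
           isq75 * ((Real.exp u₁ : ℂ) * (starRingEnd ℂ) w + (Real.exp u₂ : ℂ));
           Complex.I * isq75 * (Real.exp u₁ : ℂ),
           -(Complex.I * isq75 * ((Real.exp u₂ : ℂ) - (Real.exp u₁ : ℂ) * (starRingEnd ℂ) w))] := by
    ext i j
    rw [coe_conjGL75, coe_twPt75]
    fin_cases i <;> fin_cases j <;>
      simp only [Matrix.of_apply, Matrix.cons_val', Matrix.cons_val_zero, Matrix.cons_val_one,
        Matrix.cons_val_fin_one, Fin.zero_eta, Fin.mk_one, map_mul, map_add, map_sub, map_neg,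
        conj_isq75, Complex.conj_ofReal, Complex.conj_I] <;> ring
  rw [hc, coe_twPt75, coe_rotC75]
  exact twGeneric75 _ _ _ _ _ _ _ _ _ hA hB

/-- The matrix of the twisted conjugate `y⁻¹ k_{a/2} ȳ`. -/
theorem coe_twConj75 (a u₁ u₂ : ℝ) (w : ℂ) :
    (((twPt75 u₁ u₂ w)⁻¹ * rotC75 (a / 2) * conjGL75 (twPt75 u₁ u₂ w) : GL (Fin 2) ℂ) :
      Matrix (Fin 2) (Fin 2) ℂ) = twMat75 a u₁ u₂ w := by
  rw [mul_assoc, Matrix.GeneralLinearGroup.coe_mul, Matrix.GeneralLinearGroup.coe_mul,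
    ← twPt_mul_twMat75, ← Matrix.mul_assoc, ← Matrix.GeneralLinearGroup.coe_mul,
    inv_mul_cancel]
  simp

/-! ## The radial coordinate -/

/-- `tr(M* M)` is the sum of the squares of the absolute values of the entries. -/
theorem trace_conjTranspose_mul_self_re75 (M : Matrix (Fin 2) (Fin 2) ℂ) :
    ((M.conjTranspose * M).trace).re
      = Complex.normSq (M 0 0) + Complex.normSq (M 0 1) + Complex.normSq (M 1 0)
        + Complex.normSq (M 1 1) := by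
  simp only [Matrix.trace_fin_two, Matrix.mul_apply, Fin.sum_univ_two,
    Matrix.conjTranspose_apply, Complex.add_re, Complex.star_def, Complex.mul_re,
    Complex.conj_re, Complex.conj_im, Complex.normSq_apply]
  ring

/-- `rhoC` in terms of the matrix. -/
theorem rhoC_eq75 (y : GL (Fin 2) ℂ) {M : Matrix (Fin 2) (Fin 2) ℂ}
    (h : (y : Matrix (Fin 2) (Fin 2) ℂ) = M) :
    rhoC y = (Complex.normSq (M 0 0) + Complex.normSq (M 0 1) + Complex.normSq (M 1 0)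
        + Complex.normSq (M 1 1)) / (2 * ‖M.det‖) := by
  unfold rhoC
  rw [h, trace_conjTranspose_mul_self_re75]

/-- A unitary matrix has a determinant of absolute value `1`. -/
theorem norm_det_of_inU2_75 {k : GL (Fin 2) ℂ} (hk : InU2 k) :
    ‖(k : Matrix (Fin 2) (Fin 2) ℂ).det‖ = 1 := by
  have h := congrArg Matrix.det hk
  rw [Matrix.det_mul, Matrix.det_conjTranspose, Matrix.det_one] at h
  have h2 : ‖(k : Matrix (Fin 2) (Fin 2) ℂ).det‖ * ‖(k : Matrix (Fin 2) (Fin 2) ℂ).det‖ = 1 := by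
    have := congrArg norm h
    rwa [norm_mul, norm_star, norm_one] at this
  have h0 : 0 ≤ ‖(k : Matrix (Fin 2) (Fin 2) ℂ).det‖ := norm_nonneg _
  nlinarith

theorem inU2_iff75 {k : GL (Fin 2) ℂ} :
    InU2 k ↔ (k : Matrix (Fin 2) (Fin 2) ℂ).conjTranspose * (k : Matrix (Fin 2) (Fin 2) ℂ) = 1 :=
  mul_eq_one_comm

theorem inU2_inv75 {k : GL (Fin 2) ℂ} (hk : InU2 k) : InU2 k⁻¹ := by
  unfold InU2 at *
  have h1 : ((k⁻¹ : GL (Fin 2) ℂ) : Matrix (Fin 2) (Fin 2) ℂ)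
      = (k : Matrix (Fin 2) (Fin 2) ℂ).conjTranspose := by
    have h2 : ((k⁻¹ : GL (Fin 2) ℂ) : Matrix (Fin 2) (Fin 2) ℂ)
        * (k : Matrix (Fin 2) (Fin 2) ℂ) = 1 := by
      rw [← Matrix.GeneralLinearGroup.coe_mul, inv_mul_cancel]
      rfl
    calc ((k⁻¹ : GL (Fin 2) ℂ) : Matrix (Fin 2) (Fin 2) ℂ)
        = ((k⁻¹ : GL (Fin 2) ℂ) : Matrix (Fin 2) (Fin 2) ℂ)
          * ((k : Matrix (Fin 2) (Fin 2) ℂ) * (k : Matrix (Fin 2) (Fin 2) ℂ).conjTranspose) := by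
          rw [hk, Matrix.mul_one]
      _ = (k : Matrix (Fin 2) (Fin 2) ℂ).conjTranspose := by
          rw [← Matrix.mul_assoc, h2, Matrix.one_mul]
  rw [h1, Matrix.conjTranspose_conjTranspose]
  exact inU2_iff75.mp hk

theorem inU2_conjGL75 {k : GL (Fin 2) ℂ} (hk : InU2 k) : InU2 (conjGL75 k) := by
  unfold InU2 at *
  have h1 : ((conjGL75 k : GL (Fin 2) ℂ) : Matrix (Fin 2) (Fin 2) ℂ)
      = (k : Matrix (Fin 2) (Fin 2) ℂ).map (starRingEnd ℂ) := by
    ext i j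
    rw [coe_conjGL75]
    rfl
  rw [h1]
  have h2 : ((k : Matrix (Fin 2) (Fin 2) ℂ)
      * (k : Matrix (Fin 2) (Fin 2) ℂ).conjTranspose).map (starRingEnd ℂ)
      = (1 : Matrix (Fin 2) (Fin 2) ℂ).map (starRingEnd ℂ) := by rw [hk]
  rw [Matrix.map_mul] at h2
  have h3 : (1 : Matrix (Fin 2) (Fin 2) ℂ).map (starRingEnd ℂ) = 1 := by
    ext i j
    by_cases hij : i = j
    · subst hij; simp
    · simp [hij]
  have h4 : ((k : Matrix (Fin 2) (Fin 2) ℂ).conjTranspose).map (starRingEnd ℂ)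
      = ((k : Matrix (Fin 2) (Fin 2) ℂ).map (starRingEnd ℂ)).conjTranspose := by
    ext i j
    simp [Matrix.conjTranspose_apply]
  rw [h3, h4] at h2
  exact h2

/-- `rhoC` is invariant under `U(2)` on both sides. -/
theorem rhoC_unitary75 {k k' : GL (Fin 2) ℂ} (hk : InU2 k) (hk' : InU2 k') (y : GL (Fin 2) ℂ) :
    rhoC (k * y * k') = rhoC y := by
  unfold rhoC
  have hd : ‖((k * y * k' : GL (Fin 2) ℂ) : Matrix (Fin 2) (Fin 2) ℂ).det‖
      = ‖(y : Matrix (Fin 2) (Fin 2) ℂ).det‖ := by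
    rw [Matrix.GeneralLinearGroup.coe_mul, Matrix.GeneralLinearGroup.coe_mul, Matrix.det_mul,
      Matrix.det_mul, norm_mul, norm_mul, norm_det_of_inU2_75 hk, norm_det_of_inU2_75 hk',
      one_mul, mul_one]
  have ht : ((((k * y * k' : GL (Fin 2) ℂ) : Matrix (Fin 2) (Fin 2) ℂ)).conjTranspose
      * ((k * y * k' : GL (Fin 2) ℂ) : Matrix (Fin 2) (Fin 2) ℂ)).trace
      = ((y : Matrix (Fin 2) (Fin 2) ℂ).conjTranspose * (y : Matrix (Fin 2) (Fin 2) ℂ)).trace := by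
    rw [Matrix.GeneralLinearGroup.coe_mul, Matrix.GeneralLinearGroup.coe_mul,
      Matrix.conjTranspose_mul, Matrix.conjTranspose_mul]
    have e1 : (k' : Matrix (Fin 2) (Fin 2) ℂ).conjTranspose
          * ((y : Matrix (Fin 2) (Fin 2) ℂ).conjTranspose
            * (k : Matrix (Fin 2) (Fin 2) ℂ).conjTranspose)
          * ((k : Matrix (Fin 2) (Fin 2) ℂ) * (y : Matrix (Fin 2) (Fin 2) ℂ)
            * (k' : Matrix (Fin 2) (Fin 2) ℂ))
        = (k' : Matrix (Fin 2) (Fin 2) ℂ).conjTranspose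
          * (((y : Matrix (Fin 2) (Fin 2) ℂ).conjTranspose * (y : Matrix (Fin 2) (Fin 2) ℂ))
            * (k' : Matrix (Fin 2) (Fin 2) ℂ)) := by
      have hkk := inU2_iff75.mp hk
      calc _ = (k' : Matrix (Fin 2) (Fin 2) ℂ).conjTranspose
            * ((y : Matrix (Fin 2) (Fin 2) ℂ).conjTranspose
              * ((k : Matrix (Fin 2) (Fin 2) ℂ).conjTranspose * (k : Matrix (Fin 2) (Fin 2) ℂ))
              * (y : Matrix (Fin 2) (Fin 2) ℂ) * (k' : Matrix (Fin 2) (Fin 2) ℂ)) := by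
            simp only [Matrix.mul_assoc]
        _ = _ := by rw [hkk, Matrix.mul_one]
    rw [e1, Matrix.trace_mul_comm, Matrix.mul_assoc, hk', Matrix.mul_one]
  rw [hd, ht]

/-- The real algebra behind `twEll_rhoC75`. -/
theorem tw_real_algebra75 (p q cs sn T ca E₁ E₂ : ℝ) (hpq : p * q = 1)
    (hcs : cs ^ 2 + sn ^ 2 = 1) (hca : ca = cs ^ 2 - sn ^ 2) (hE1 : E₁ = p * p)
    (hE2 : E₂ = q * q) :
    T * (q * q * (cs * cs + sn * sn))
        + ((p * cs - T * (q * cs)) * (p * cs - T * (q * cs))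
          + (p * sn + T * (q * sn)) * (p * sn + T * (q * sn)))
        + q * q * (cs * cs + sn * sn) + T * (q * q * (cs * cs + sn * sn))
      = 2 * ((E₁ + E₂ * (1 + T) ^ 2) / 2 - T * ca) := by
  linear_combination (p ^ 2 + q ^ 2 * (1 + T) ^ 2) * hcs - (2 * T * (cs ^ 2 - sn ^ 2)) * hpq
    - hE1 - (1 + T) ^ 2 * hE2 + 2 * T * hca

/-- The generic determinant. -/
theorem tw_det_generic75 (p q cs sn : ℝ) (w : ℂ) (hpq : p * q = 1) (hcs : cs ^ 2 + sn ^ 2 = 1) :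
    (!![-(w * ((q : ℂ) * ((cs : ℂ) - Complex.I * (sn : ℂ)))),
        (p : ℂ) * ((cs : ℂ) + Complex.I * (sn : ℂ))
          - w * (starRingEnd ℂ) w * ((q : ℂ) * ((cs : ℂ) - Complex.I * (sn : ℂ)));
        (q : ℂ) * ((cs : ℂ) - Complex.I * (sn : ℂ)),
        (starRingEnd ℂ) w * ((q : ℂ) * ((cs : ℂ) - Complex.I * (sn : ℂ)))] :
      Matrix (Fin 2) (Fin 2) ℂ).det = -1 := by
  rw [Matrix.det_fin_two_of]
  have hI := Complex.I_mul_I
  have h1 : (p : ℂ) * (q : ℂ) = 1 := by exact_mod_cast hpq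
  have h2 : (cs : ℂ) ^ 2 + (sn : ℂ) ^ 2 = 1 := by exact_mod_cast hcs
  linear_combination (-((cs : ℂ) ^ 2 + (sn : ℂ) ^ 2)) * h1 - h2
    + ((p : ℂ) * (q : ℂ) * (sn : ℂ) ^ 2) * hI

/-- The generic sum of squares. -/
theorem tw_normSq_generic75 (p q cs sn : ℝ) (w : ℂ) :
    Complex.normSq (-(w * ((q : ℂ) * ((cs : ℂ) - Complex.I * (sn : ℂ)))))
      + Complex.normSq ((p : ℂ) * ((cs : ℂ) + Complex.I * (sn : ℂ))
          - w * (starRingEnd ℂ) w * ((q : ℂ) * ((cs : ℂ) - Complex.I * (sn : ℂ))))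
      + Complex.normSq ((q : ℂ) * ((cs : ℂ) - Complex.I * (sn : ℂ)))
      + Complex.normSq ((starRingEnd ℂ) w * ((q : ℂ) * ((cs : ℂ) - Complex.I * (sn : ℂ))))
    = Complex.normSq w * (q * q * (cs * cs + sn * sn))
        + ((p * cs - Complex.normSq w * (q * cs)) * (p * cs - Complex.normSq w * (q * cs))
          + (p * sn + Complex.normSq w * (q * sn)) * (p * sn + Complex.normSq w * (q * sn)))
        + q * q * (cs * cs + sn * sn) + Complex.normSq w * (q * q * (cs * cs + sn * sn)) := by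
  have e1 : Complex.normSq ((cs : ℂ) - Complex.I * (sn : ℂ)) = cs * cs + sn * sn := by
    rw [Complex.normSq_apply]
    simp only [Complex.sub_re, Complex.sub_im, Complex.mul_re, Complex.mul_im, Complex.ofReal_re,
      Complex.ofReal_im, Complex.I_re, Complex.I_im]
    ring
  have e2 : w * (starRingEnd ℂ) w = ((Complex.normSq w : ℝ) : ℂ) := Complex.mul_conj w
  have e3 : Complex.normSq ((p : ℂ) * ((cs : ℂ) + Complex.I * (sn : ℂ))
          - ((Complex.normSq w : ℝ) : ℂ) * ((q : ℂ) * ((cs : ℂ) - Complex.I * (sn : ℂ))))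
      = (p * cs - Complex.normSq w * (q * cs)) * (p * cs - Complex.normSq w * (q * cs))
          + (p * sn + Complex.normSq w * (q * sn)) * (p * sn + Complex.normSq w * (q * sn)) := by
    rw [Complex.normSq_apply]
    simp only [Complex.sub_re, Complex.sub_im, Complex.add_re, Complex.add_im, Complex.mul_re,
      Complex.mul_im, Complex.ofReal_re, Complex.ofReal_im, Complex.I_re, Complex.I_im]
    ring
  rw [e2, e3, Complex.normSq_neg, map_mul, map_mul, map_mul, map_mul, Complex.normSq_conj, e1,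
    Complex.normSq_ofReal]

/-- The determinant of the twisted conjugate is `-1`. -/
theorem twMat_det75 (a u₁ u₂ : ℝ) (w : ℂ) : (twMat75 a u₁ u₂ w).det = -1 := by
  unfold twMat75
  apply tw_det_generic75
  · rw [← Real.exp_add]
    simp
  · exact Real.cos_sq_add_sin_sq _

/-- **The radial coordinate of the twisted elliptic orbit**:
`rhoC (y⁻¹ k_{a/2} ȳ) = (e^{-2v} + e^{2v} (1 + |w|²)²) / 2 - |w|² cos a`, `v = u₁ - u₂`,
`y = g₀ · diag(e^{u₁}, e^{u₂}) · n(w)`. -/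
theorem twEll_rhoC75 (a u₁ u₂ : ℝ) (w : ℂ) :
    rhoC ((twPt75 u₁ u₂ w)⁻¹ * rotC75 (a / 2) * conjGL75 (twPt75 u₁ u₂ w))
      = twRho75 a (u₁ - u₂) (Complex.normSq w) := by
  rw [rhoC_eq75 _ (coe_twConj75 a u₁ u₂ w), twMat_det75, norm_neg, norm_one, mul_one]
  have h := tw_normSq_generic75 (Real.exp (u₂ - u₁)) (Real.exp (u₁ - u₂)) (Real.cos (a / 2))
    (Real.sin (a / 2)) w
  have hentries : Complex.normSq (twMat75 a u₁ u₂ w 0 0) + Complex.normSq (twMat75 a u₁ u₂ w 0 1)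
      + Complex.normSq (twMat75 a u₁ u₂ w 1 0) + Complex.normSq (twMat75 a u₁ u₂ w 1 1)
      = 2 * twRho75 a (u₁ - u₂) (Complex.normSq w) := by
    have h0 : twMat75 a u₁ u₂ w 0 0 = -(w * ((Real.exp (u₁ - u₂) : ℂ)
        * ((Real.cos (a / 2) : ℂ) - Complex.I * (Real.sin (a / 2) : ℂ)))) := rfl
    have h1 : twMat75 a u₁ u₂ w 0 1
        = (Real.exp (u₂ - u₁) : ℂ) * ((Real.cos (a / 2) : ℂ) + Complex.I * (Real.sin (a / 2) : ℂ))
          - w * (starRingEnd ℂ) w * ((Real.exp (u₁ - u₂) : ℂ)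
            * ((Real.cos (a / 2) : ℂ) - Complex.I * (Real.sin (a / 2) : ℂ))) := rfl
    have h2 : twMat75 a u₁ u₂ w 1 0 = (Real.exp (u₁ - u₂) : ℂ)
        * ((Real.cos (a / 2) : ℂ) - Complex.I * (Real.sin (a / 2) : ℂ)) := rfl
    have h3 : twMat75 a u₁ u₂ w 1 1 = (starRingEnd ℂ) w * ((Real.exp (u₁ - u₂) : ℂ)
        * ((Real.cos (a / 2) : ℂ) - Complex.I * (Real.sin (a / 2) : ℂ))) := rfl
    rw [h0, h1, h2, h3, h]
    unfold twRho75
    apply tw_real_algebra75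
    · rw [← Real.exp_add]
      simp
    · exact Real.cos_sq_add_sin_sq _
    · have := Real.cos_sq_add_sin_sq (a / 2)
      have h2 := Real.cos_two_mul (a / 2)
      rw [show 2 * (a / 2) = a by ring] at h2
      rw [h2]
      linarith
    · rw [← Real.exp_add]
      congr 1
      ring
    · rw [← Real.exp_add]
      congr 1
      ring
  rw [hentries]
  ring

/-- The absolute value of the determinant of the twisted conjugate is `1`. -/
theorem twEll_norm_det75 (a u₁ u₂ : ℝ) (w : ℂ) :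
    ‖(((twPt75 u₁ u₂ w)⁻¹ * rotC75 (a / 2) * conjGL75 (twPt75 u₁ u₂ w) : GL (Fin 2) ℂ) :
      Matrix (Fin 2) (Fin 2) ℂ).det‖ = 1 := by
  rw [coe_twConj75, twMat_det75, norm_neg, norm_one]

/-- The twisted conjugate at `x = y k`. -/
theorem twConj_mul75 (δ y k : GL (Fin 2) ℂ) :
    (y * k)⁻¹ * δ * conjGL75 (y * k) = k⁻¹ * (y⁻¹ * δ * conjGL75 y) * conjGL75 k := by
  rw [map_mul, mul_inv_rev]
  simp only [mul_assoc]

/-- **The radial coordinate on the whole twisted orbit**, `x = g₀ · diag · n(w) · k`, `k ∈ U(2)`. -/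
theorem twEll_rhoC_full75 (a u₁ u₂ : ℝ) (w : ℂ) {k : GL (Fin 2) ℂ} (hk : InU2 k) :
    rhoC ((twPt75 u₁ u₂ w * k)⁻¹ * rotC75 (a / 2) * conjGL75 (twPt75 u₁ u₂ w * k))
      = twRho75 a (u₁ - u₂) (Complex.normSq w) := by
  rw [twConj_mul75, rhoC_unitary75 (inU2_inv75 hk) (inU2_conjGL75 hk), twEll_rhoC75]

theorem twEll_norm_det_full75 (a u₁ u₂ : ℝ) (w : ℂ) {k : GL (Fin 2) ℂ} (hk : InU2 k) :
    ‖(((twPt75 u₁ u₂ w * k)⁻¹ * rotC75 (a / 2) * conjGL75 (twPt75 u₁ u₂ w * k) :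
      GL (Fin 2) ℂ) : Matrix (Fin 2) (Fin 2) ℂ).det‖ = 1 := by
  rw [twConj_mul75, Matrix.GeneralLinearGroup.coe_mul, Matrix.GeneralLinearGroup.coe_mul,
    Matrix.det_mul, Matrix.det_mul, norm_mul, norm_mul, norm_det_of_inU2_75 (inU2_inv75 hk),
    norm_det_of_inU2_75 (inU2_conjGL75 hk), twEll_norm_det75, one_mul, mul_one]

/-- `|det x| = e^{u₁ + u₂}` at `x = g₀ · diag(e^{u₁}, e^{u₂}) · n(w) · k`. -/
theorem norm_det_twPt75 (u₁ u₂ : ℝ) (w : ℂ) {k : GL (Fin 2) ℂ} (hk : InU2 k) :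
    ‖((twPt75 u₁ u₂ w * k : GL (Fin 2) ℂ) : Matrix (Fin 2) (Fin 2) ℂ).det‖
      = Real.exp (u₁ + u₂) := by
  rw [Matrix.GeneralLinearGroup.coe_mul, Matrix.det_mul, norm_mul, norm_det_of_inU2_75 hk,
    mul_one]
  unfold twPt75
  rw [Matrix.GeneralLinearGroup.coe_mul, Matrix.GeneralLinearGroup.coe_mul, Matrix.det_mul,
    Matrix.det_mul, coe_g0GL75, g0Mat_det75, coe_dgC75, coe_unC75, Matrix.det_fin_two_of,
    Matrix.det_fin_two_of, norm_mul, norm_mul, Complex.norm_I]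
  simp only [mul_zero, sub_zero, mul_one, one_mul, norm_one]
  rw [← Complex.ofReal_mul, ← Real.exp_add, Complex.norm_real, Real.norm_eq_abs,
    abs_of_pos (Real.exp_pos _)]

end Fermat.Agent.LT.T6.H75

end
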