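import Mathlib
import Fermat.Agent.LT.T6.H517.Abel
import Fermat.Agent.LT.T6.H75.TwEllAlg

/-!
# Row LT, tower T6, P7 (archimedean matching `ℂ/ℝ`), leaf T6.26: the twisted elliptic orbital
integral in Iwasawa coordinates — CALCULUS (helper75), OFF-MAIN

For `Φ` continuous, vanishing on `[M, ∞)`, `h` continuous with compact support, `cos a < 1`:

    ∫_{ℝ × ℝ × ℂ} Φ(ρ(u₁ - u₂, |w|²)) h(u₁ + u₂) du₁ du₂ dw
      = (π / 4) (∫ h) ∫_ℝ (cosh σ - cos a)⁻¹ Ψ(cosh σ) dσ,      Ψ(y) = ∫_y^∞ Φ,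

`ρ(v, t) = (e^{-2v} + e^{2v} (1 + t)²) / 2 - t cos a` (`twRho75`), and the integrand is integrable
(`twEll_integral75`, `twEll_integrable75`).  The right-hand side is the `I(a)` of helper517
(`radialMatch517`).  Mathlib + `LT/T6/H517/Abel.lean` (polar coordinates, byte-identical copy).
-/

set_option autoImplicit false
set_option linter.unusedSimpArgs false

open MeasureTheory Real Set
open scoped Convolution

noncomputable section

namespace Fermat.Agent.LT.T6.H75

open Fermat.Agent.LT.T6.H517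

/-! ## Bounds -/

/-- `ρ(v, t) ≥ 1 + t (1 - cos a)` for `t ≥ 0`. -/
theorem twRho_ge_one75 (a v : ℝ) {t : ℝ} (ht : 0 ≤ t) :
    1 + t * (1 - Real.cos a) ≤ twRho75 a v t := by
  unfold twRho75
  have h1 : Real.exp (-(2 * v)) = Real.exp (-v) ^ 2 := by
    rw [sq, ← Real.exp_add]; congr 1; ring
  have h2 : Real.exp (2 * v) = Real.exp v ^ 2 := by
    rw [sq, ← Real.exp_add]; congr 1; ring
  have h3 : Real.exp (-v) * Real.exp v = 1 := by
    rw [← Real.exp_add]; simp
  rw [h1, h2]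
  nlinarith [sq_nonneg (Real.exp (-v) - Real.exp v * (1 + t))]

/-- `ρ(v, t) ≥ e^{2|v|} / 2 - t` for `t ≥ 0`. -/
theorem twRho_ge_exp75 (a v : ℝ) {t : ℝ} (ht : 0 ≤ t) :
    Real.exp (2 * |v|) / 2 - t ≤ twRho75 a v t := by
  unfold twRho75
  have hc : Real.cos a ≤ 1 := Real.cos_le_one a
  have h1 : 0 < Real.exp (-(2 * v)) := Real.exp_pos _
  have h2 : 0 < Real.exp (2 * v) := Real.exp_pos _
  have h3 : t * Real.cos a ≤ t := by nlinarith
  have h4 : Real.exp (2 * v) ≤ Real.exp (2 * v) * (1 + t) ^ 2 := by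
    have : (1 : ℝ) ≤ (1 + t) ^ 2 := by nlinarith
    nlinarith
  rcases le_total 0 v with hv | hv
  · rw [abs_of_nonneg hv]
    linarith
  · rw [abs_of_nonpos hv]
    have : Real.exp (2 * -v) = Real.exp (-(2 * v)) := by congr 1; ring
    rw [this]
    nlinarith

/-- `|v| ≤ e^{2|v|} / 2`. -/
theorem abs_le_exp_half75 (v : ℝ) : |v| ≤ Real.exp (2 * |v|) / 2 := by
  have h := Real.add_one_le_exp (2 * |v|)
  have h0 := abs_nonneg v
  linarith

/-- The constant bounding `t` on the support. -/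
def twT75 (a M : ℝ) : ℝ := (max M 1 - 1) / (1 - Real.cos a)

theorem twT_nonneg75 {a : ℝ} (ha : Real.cos a < 1) (M : ℝ) : 0 ≤ twT75 a M := by
  unfold twT75
  apply div_nonneg
  · have := le_max_right M 1; linarith
  · linarith

/-- On the support: `t < T`. -/
theorem lt_twT_of_twRho_lt75 {a : ℝ} (ha : Real.cos a < 1) {M v t : ℝ} (ht : 0 ≤ t)
    (h : twRho75 a v t < M) : t ≤ twT75 a M := by
  unfold twT75
  have h1 := twRho_ge_one75 a v ht
  have h2 : 0 < 1 - Real.cos a := by linarith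
  rw [le_div_iff₀ h2]
  have := le_max_left M 1
  linarith

/-- On the support: `|v| ≤ max M 1 + T`. -/
theorem abs_le_of_twRho_lt75 {a : ℝ} (ha : Real.cos a < 1) {M v t : ℝ} (ht : 0 ≤ t)
    (h : twRho75 a v t < M) : |v| ≤ max M 1 + twT75 a M := by
  have h1 := twRho_ge_exp75 a v ht
  have h2 := abs_le_exp_half75 v
  have h3 := lt_twT_of_twRho_lt75 ha ht h
  have := le_max_left M 1
  linarith

theorem continuous_twRho75 (a : ℝ) : Continuous (fun p : ℝ × ℝ => twRho75 a p.1 p.2) := by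
  unfold twRho75
  fun_prop

/-! ## Three elementary integrals -/

/-- Polar coordinates in `ℂ`: `∫_ℂ G(|w|²) dw = π ∫_0^∞ G`. -/
theorem integral_normSq75 {G : ℝ → ℂ} (hGc : Continuous G) {M : ℝ}
    (hG : VanishesAbove517 G M) :
    ∫ w : ℂ, G (Complex.normSq w) = (π : ℂ) * ∫ y in Ioi (0 : ℝ), G y := by
  have h1 : ∫ w : ℂ, G (Complex.normSq w)
      = ∫ p : ℝ × ℝ, G (p.1 ^ 2 + p.2 ^ 2) := by
    rw [← (Complex.volume_preserving_equiv_real_prod.symm).integral_comp
      Complex.measurableEquivRealProd.symm.measurableEmbedding]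
    refine integral_congr_ae (Filter.Eventually.of_forall fun p => ?_)
    simp only [Complex.measurableEquivRealProd_symm_apply, Complex.normSq_mk]
    congr 1
    ring
  have hc : Continuous (fun p : ℝ × ℝ => G (p.1 ^ 2 + p.2 ^ 2)) := hGc.comp (by fun_prop)
  have hcs : HasCompactSupport (fun p : ℝ × ℝ => G (p.1 ^ 2 + p.2 ^ 2)) := by
    have := hasCompactSupport_radial517 hG (fun _ => (1 : ℝ))
    simpa using this
  have hi : Integrable (fun p : ℝ × ℝ => G (p.1 ^ 2 + p.2 ^ 2)) (volume.prod volume) := by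
    rw [← Measure.volume_eq_prod]
    exact hc.integrable_of_hasCompactSupport hcs
  rw [h1, Measure.volume_eq_prod, integral_prod _ hi, integral_radial517 hGc hG]
  rw [Complex.real_smul]

/-- The affine substitution `y = A + t D` on `(0, ∞)`. -/
theorem integral_Ioi_affine75 (Φ : ℝ → ℂ) (A : ℝ) {D : ℝ} (hD : 0 < D) :
    ∫ t in Ioi (0 : ℝ), Φ (A + t * D) = (D : ℂ)⁻¹ * ∫ y in Ioi A, Φ y := by
  have h1 := integral_comp_mul_left_Ioi (fun x => Φ (A + x)) 0 hD
  simp only [mul_zero] at h1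
  have h2 : ∫ x in Ioi (0 : ℝ), Φ (A + x) = ∫ y in Ioi A, Φ y := by
    rw [← integral_indicator measurableSet_Ioi, ← integral_indicator measurableSet_Ioi,
      ← integral_add_left_eq_self (fun y => (Ioi A).indicator Φ y) A]
    refine integral_congr_ae (Filter.Eventually.of_forall fun x => ?_)
    by_cases hx : 0 < x
    · have hx' : A + x ∈ Ioi A := by simp [hx]
      simp [indicator_of_mem, hx, hx']
    · have hx' : A + x ∉ Ioi A := by simp [hx]
      simp [indicator_of_notMem, hx, hx']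
  have h3 : ∫ t in Ioi (0 : ℝ), Φ (A + t * D) = ∫ x in Ioi (0 : ℝ), Φ (A + D * x) := by
    refine integral_congr_ae (Filter.Eventually.of_forall fun x => ?_)
    simp only [mul_comm]
  rw [h3, h1, h2, Complex.real_smul, Complex.ofReal_inv]

/-- The linear substitution `(u₁, u₂) ↦ (u₁ - u₂, u₁ + u₂)`, of determinant `2`. -/
theorem integral_sub_add75 {J h : ℝ → ℂ} (hJ : Integrable J) (hh : Integrable h)
    (hF : Integrable (fun u : ℝ × ℝ => J (u.1 - u.2) * h (u.1 + u.2)) (volume.prod volume)) :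
    ∫ u : ℝ × ℝ, J (u.1 - u.2) * h (u.1 + u.2) = (1 / 2 : ℂ) * ((∫ v, J v) * ∫ y, h y) := by
  rw [Measure.volume_eq_prod, integral_prod _ hF]
  have h1 : ∀ u₁ : ℝ, ∫ u₂ : ℝ, J (u₁ - u₂) * h (u₁ + u₂)
      = (J ⋆[ContinuousLinearMap.mul ℝ ℂ, volume] h) (2 * u₁) := by
    intro u₁
    rw [convolution_def, ← integral_sub_left_eq_self
      (fun t => (ContinuousLinearMap.mul ℝ ℂ) (J t) (h (2 * u₁ - t))) volume u₁]
    refine integral_congr_ae (Filter.Eventually.of_forall fun x => ?_)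
    simp only [ContinuousLinearMap.mul_apply']
    congr 2
    ring
  simp only [h1]
  rw [Measure.integral_comp_mul_left (fun x => (J ⋆[ContinuousLinearMap.mul ℝ ℂ, volume] h) x) 2,
    integral_convolution (ContinuousLinearMap.mul ℝ ℂ) hJ hh]
  simp only [ContinuousLinearMap.mul_apply', Complex.real_smul]
  rw [abs_of_pos (by norm_num : (0 : ℝ) < 2⁻¹)]
  push_cast
  ring

/-! ## The integrand -/

/-- The integrand in the order `(w, (u₁, u₂))`. -/
def twG75 (a : ℝ) (Φ : ℝ → ℂ) (h : ℝ → ℝ) (q : ℂ × (ℝ × ℝ)) : ℂ :=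
  Φ (twRho75 a (q.2.1 - q.2.2) (Complex.normSq q.1)) * (h (q.2.1 + q.2.2) : ℂ)

/-- The second radial coordinate `(1 + t) cosh 2s - t cos a`. -/
def twRhoB75 (a s t : ℝ) : ℝ := (1 + t) * Real.cosh (2 * s) - t * Real.cos a

/-- The integrand after the shift, on `ℂ × ℝ`. -/
def twH75 (a : ℝ) (Φ : ℝ → ℂ) (q : ℂ × ℝ) : ℂ := Φ (twRhoB75 a q.2 (Complex.normSq q.1))

/-- The tail integral `Ψ(y) = ∫_y^∞ Φ`. -/
def twTail75 (Φ : ℝ → ℂ) (y : ℝ) : ℂ := ∫ x in Ioi y, Φ x

/-- `ρ(s - log(1 + t)/2, t) = (1 + t) cosh 2s - t cos a`. -/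
theorem twRho_shift75 (a s : ℝ) {t : ℝ} (ht : 0 ≤ t) :
    twRho75 a (s - Real.log (1 + t) / 2) t = twRhoB75 a s t := by
  unfold twRho75 twRhoB75
  have hpos : 0 < 1 + t := by linarith
  have h1 : Real.exp (-(2 * (s - Real.log (1 + t) / 2))) = Real.exp (-(2 * s)) * (1 + t) := by
    rw [show -(2 * (s - Real.log (1 + t) / 2)) = -(2 * s) + Real.log (1 + t) by ring,
      Real.exp_add, Real.exp_log hpos]
  have h2 : Real.exp (2 * (s - Real.log (1 + t) / 2)) * (1 + t) = Real.exp (2 * s) := by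
    rw [show 2 * (s - Real.log (1 + t) / 2) = 2 * s - Real.log (1 + t) by ring,
      Real.exp_sub, Real.exp_log hpos]
    field_simp
  have h3 : Real.exp (2 * (s - Real.log (1 + t) / 2)) * (1 + t) ^ 2
      = Real.exp (2 * s) * (1 + t) := by
    rw [sq, ← mul_assoc, h2]
  rw [h1, h3, Real.cosh_eq]
  ring

theorem exists_bound75 {h : ℝ → ℝ} (hhc : HasCompactSupport h) :
    ∃ r : ℝ, 0 ≤ r ∧ ∀ x : ℝ, r < |x| → h x = 0 := by
  obtain ⟨r, hr⟩ := hhc.isCompact.isBounded.subset_closedBall (0 : ℝ)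
  refine ⟨max r 0, le_max_right _ _, fun x hx => ?_⟩
  apply image_eq_zero_of_notMem_tsupport
  intro hmem
  have := hr hmem
  rw [Metric.mem_closedBall, dist_zero_right, Real.norm_eq_abs] at this
  have := le_max_left r 0
  linarith

theorem continuous_twG75 (a : ℝ) {Φ : ℝ → ℂ} (hΦc : Continuous Φ) {h : ℝ → ℝ}
    (hh : Continuous h) : Continuous (twG75 a Φ h) := by
  unfold twG75
  apply Continuous.mul
  · apply hΦc.comp
    exact (continuous_twRho75 a).comp
      (Continuous.prodMk (by fun_prop) (Complex.continuous_normSq.comp continuous_fst))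
  · exact Complex.continuous_ofReal.comp (hh.comp (by fun_prop))

theorem norm_le_of_normSq_le75 {w : ℂ} {T : ℝ} (hT : 0 ≤ T) (h : Complex.normSq w ≤ T) :
    ‖w‖ ≤ T + 1 := by
  have h1 : ‖w‖ ^ 2 = Complex.normSq w := by
    rw [Complex.normSq_eq_norm_sq]
  have h0 : 0 ≤ ‖w‖ := norm_nonneg w
  nlinarith

theorem hasCompactSupport_twG75 {a : ℝ} (ha : Real.cos a < 1) {Φ : ℝ → ℂ} {M : ℝ}
    (hΦM : VanishesAbove517 Φ M) {h : ℝ → ℝ} (hhc : HasCompactSupport h) :
    HasCompactSupport (twG75 a Φ h) := by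
  obtain ⟨r, hr0, hr⟩ := exists_bound75 hhc
  have hT := twT_nonneg75 ha M
  set V : ℝ := max M 1 + twT75 a M with hV
  apply HasCompactSupport.intro
    (K := Metric.closedBall (0 : ℂ) (twT75 a M + 1) ×ˢ (Icc (-(r + V)) (r + V) ×ˢ Icc (-(r + V)) (r + V)))
    ((isCompact_closedBall _ _).prod (isCompact_Icc.prod isCompact_Icc))
  rintro ⟨w, u₁, u₂⟩ hq
  by_contra hne
  apply hq
  unfold twG75 at hne
  have hΦ : Φ (twRho75 a (u₁ - u₂) (Complex.normSq w)) ≠ 0 := left_ne_zero_of_mul hne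
  have hh0 : h (u₁ + u₂) ≠ 0 := by
    intro h0
    apply hne
    simp only [h0, Complex.ofReal_zero, mul_zero]
  have hlt : twRho75 a (u₁ - u₂) (Complex.normSq w) < M := by
    by_contra hcon
    exact hΦ (hΦM _ (not_lt.mp hcon))
  have hy : |u₁ + u₂| ≤ r := by
    by_contra hcon
    exact hh0 (hr _ (not_le.mp hcon))
  have ht := lt_twT_of_twRho_lt75 ha (Complex.normSq_nonneg w) hlt
  have hv := abs_le_of_twRho_lt75 ha (Complex.normSq_nonneg w) hlt
  rw [← hV] at hv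
  rw [abs_le] at hy hv
  refine ⟨?_, ⟨?_, ?_⟩, ⟨?_, ?_⟩⟩
  · rw [Metric.mem_closedBall, dist_zero_right]
    exact norm_le_of_normSq_le75 hT ht
  · linarith [hy.1, hv.1]
  · linarith [hy.2, hv.2]
  · linarith [hy.1, hv.2]
  · linarith [hy.2, hv.1]

theorem integrable_twG75 {a : ℝ} (ha : Real.cos a < 1) {Φ : ℝ → ℂ} (hΦc : Continuous Φ) {M : ℝ}
    (hΦM : VanishesAbove517 Φ M) {h : ℝ → ℝ} (hh : Continuous h) (hhc : HasCompactSupport h) :
    Integrable (twG75 a Φ h) (volume.prod volume) := by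
  rw [← Measure.volume_eq_prod]
  exact (continuous_twG75 a hΦc hh).integrable_of_hasCompactSupport
    (hasCompactSupport_twG75 ha hΦM hhc)

theorem continuous_twH75 (a : ℝ) {Φ : ℝ → ℂ} (hΦc : Continuous Φ) : Continuous (twH75 a Φ) := by
  unfold twH75 twRhoB75
  apply hΦc.comp
  have := Complex.continuous_normSq
  fun_prop

theorem hasCompactSupport_twH75 {a : ℝ} (ha : Real.cos a < 1) {Φ : ℝ → ℂ} {M : ℝ}
    (hΦM : VanishesAbove517 Φ M) : HasCompactSupport (twH75 a Φ) := by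
  have hT := twT_nonneg75 ha M
  set V : ℝ := max M 1 + twT75 a M with hV
  apply HasCompactSupport.intro
    (K := Metric.closedBall (0 : ℂ) (twT75 a M + 1) ×ˢ Icc (-(V + twT75 a M)) (V + twT75 a M))
    ((isCompact_closedBall _ _).prod isCompact_Icc)
  rintro ⟨w, s⟩ hq
  by_contra hne
  apply hq
  unfold twH75 at hne
  have hlt : twRhoB75 a s (Complex.normSq w) < M := by
    by_contra hcon
    exact hne (hΦM _ (not_lt.mp hcon))
  rw [← twRho_shift75 a s (Complex.normSq_nonneg w)] at hlt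
  have ht := lt_twT_of_twRho_lt75 ha (Complex.normSq_nonneg w) hlt
  have hv := abs_le_of_twRho_lt75 ha (Complex.normSq_nonneg w) hlt
  rw [← hV] at hv
  have hlog : Real.log (1 + Complex.normSq w) ≤ Complex.normSq w := by
    have := Real.log_le_sub_one_of_pos
      (by linarith [Complex.normSq_nonneg w] : 0 < 1 + Complex.normSq w)
    linarith
  have hlog0 : 0 ≤ Real.log (1 + Complex.normSq w) :=
    Real.log_nonneg (by linarith [Complex.normSq_nonneg w])
  rw [abs_le] at hv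
  refine ⟨?_, ?_, ?_⟩
  · rw [Metric.mem_closedBall, dist_zero_right]
    exact norm_le_of_normSq_le75 hT ht
  · linarith [hv.1]
  · linarith [hv.2]

theorem integrable_twH75 {a : ℝ} (ha : Real.cos a < 1) {Φ : ℝ → ℂ} (hΦc : Continuous Φ) {M : ℝ}
    (hΦM : VanishesAbove517 Φ M) : Integrable (twH75 a Φ) (volume.prod volume) := by
  rw [← Measure.volume_eq_prod]
  exact (continuous_twH75 a hΦc).integrable_of_hasCompactSupport
    (hasCompactSupport_twH75 ha hΦM)

/-! ## The computation -/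

/-- The inner integral over `(u₁, u₂)`. -/
theorem integral_twG_inner75 {a : ℝ} (ha : Real.cos a < 1) {Φ : ℝ → ℂ} (hΦc : Continuous Φ)
    {M : ℝ} (hΦM : VanishesAbove517 Φ M) {h : ℝ → ℝ} (hh : Continuous h)
    (hhc : HasCompactSupport h) (w : ℂ)
    (hw : Integrable (fun u : ℝ × ℝ => twG75 a Φ h (w, u)) (volume.prod volume)) :
    ∫ u : ℝ × ℝ, twG75 a Φ h (w, u)
      = (1 / 2 : ℂ) * ((∫ s : ℝ, twH75 a Φ (w, s)) * ((∫ y, h y : ℝ) : ℂ)) := by
  have ht := Complex.normSq_nonneg w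
  set J : ℝ → ℂ := fun v => Φ (twRho75 a v (Complex.normSq w)) with hJ
  have hJc : Continuous J :=
    hΦc.comp ((continuous_twRho75 a).comp (Continuous.prodMk continuous_id continuous_const))
  have hJs : HasCompactSupport J := by
    apply HasCompactSupport.intro (K := Icc (-(max M 1 + twT75 a M)) (max M 1 + twT75 a M))
      isCompact_Icc
    intro v hv
    by_contra hne
    apply hv
    have hlt : twRho75 a v (Complex.normSq w) < M := by
      by_contra hcon
      exact hne (hΦM _ (not_lt.mp hcon))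
    have := abs_le_of_twRho_lt75 ha ht hlt
    rw [abs_le] at this
    exact ⟨this.1, this.2⟩
  have hJi : Integrable J := hJc.integrable_of_hasCompactSupport hJs
  have hhi : Integrable (fun y : ℝ => ((h y : ℝ) : ℂ)) :=
    (Complex.continuous_ofReal.comp hh).integrable_of_hasCompactSupport
      (hhc.comp_left Complex.ofReal_zero)
  have h1 := integral_sub_add75 hJi hhi hw
  have h2 : (∫ u : ℝ × ℝ, twG75 a Φ h (w, u))
      = ∫ u : ℝ × ℝ, J (u.1 - u.2) * ((h (u.1 + u.2) : ℝ) : ℂ) := rfl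
  have h3 : ∫ v : ℝ, J v = ∫ s : ℝ, twH75 a Φ (w, s) := by
    rw [← integral_sub_right_eq_self J (Real.log (1 + Complex.normSq w) / 2)]
    refine integral_congr_ae (Filter.Eventually.of_forall fun s => ?_)
    simp only [hJ, twH75]
    rw [twRho_shift75 a s ht]
  have h4 : ∫ y : ℝ, ((h y : ℝ) : ℂ) = ((∫ y, h y : ℝ) : ℂ) :=
    integral_ofReal (μ := volume) (𝕜 := ℂ) (f := h)
  rw [h2, h1, h3, h4]

/-- The inner integral over `w`. -/
theorem integral_twH_inner75 {a : ℝ} (ha : Real.cos a < 1) {Φ : ℝ → ℂ} (hΦc : Continuous Φ)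
    {M : ℝ} (hΦM : VanishesAbove517 Φ M) (s : ℝ) :
    ∫ w : ℂ, twH75 a Φ (w, s)
      = (π : ℂ) * (((Real.cosh (2 * s) - Real.cos a)⁻¹ : ℝ) : ℂ)
        * twTail75 Φ (Real.cosh (2 * s)) := by
  have hD : 0 < Real.cosh (2 * s) - Real.cos a := by
    have := Real.one_le_cosh (2 * s)
    linarith
  set G : ℝ → ℂ := fun t => Φ (Real.cosh (2 * s) + t * (Real.cosh (2 * s) - Real.cos a)) with hG
  have hGc : Continuous G := hΦc.comp (by fun_prop)
  have hGv : VanishesAbove517 G ((M - Real.cosh (2 * s)) / (Real.cosh (2 * s) - Real.cos a)) := by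
    intro x hx
    apply hΦM
    rw [div_le_iff₀ hD] at hx
    linarith
  have h1 : ∫ w : ℂ, twH75 a Φ (w, s) = ∫ w : ℂ, G (Complex.normSq w) := by
    refine integral_congr_ae (Filter.Eventually.of_forall fun w => ?_)
    simp only [twH75, twRhoB75, hG]
    congr 1
    ring
  rw [h1, integral_normSq75 hGc hGv, integral_Ioi_affine75 Φ _ hD]
  unfold twTail75
  push_cast
  ring

/-- **The twisted elliptic orbital integral in Iwasawa coordinates**, order `(w, (u₁, u₂))`. -/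
theorem twEll_integral_aux75 {a : ℝ} (ha : Real.cos a < 1) {Φ : ℝ → ℂ} (hΦc : Continuous Φ)
    {M : ℝ} (hΦM : VanishesAbove517 Φ M) {h : ℝ → ℝ} (hh : Continuous h)
    (hhc : HasCompactSupport h) :
    ∫ q : ℂ × (ℝ × ℝ), twG75 a Φ h q
      = ((π / 4 * ∫ y, h y : ℝ) : ℂ)
        * ∫ σ : ℝ, (Real.cosh σ - Real.cos a)⁻¹ • twTail75 Φ (Real.cosh σ) := by
  have hI := integrable_twG75 ha hΦc hΦM hh hhc
  rw [Measure.volume_eq_prod, integral_prod _ hI]
  have h1 : ∫ w : ℂ, ∫ u : ℝ × ℝ, twG75 a Φ h (w, u)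
      = ∫ w : ℂ, (1 / 2 : ℂ) * ((∫ s : ℝ, twH75 a Φ (w, s)) * ((∫ y, h y : ℝ) : ℂ)) := by
    refine integral_congr_ae ?_
    filter_upwards [hI.prod_right_ae] with w hw
    rw [Measure.volume_eq_prod] at hw
    exact integral_twG_inner75 ha hΦc hΦM hh hhc w hw
  rw [h1, integral_const_mul, integral_mul_const]
  have h2 : ∫ w : ℂ, ∫ s : ℝ, twH75 a Φ (w, s)
      = ∫ s : ℝ, ∫ w : ℂ, twH75 a Φ (w, s) :=
    integral_integral_swap (integrable_twH75 ha hΦc hΦM)
  rw [h2]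
  simp only [integral_twH_inner75 ha hΦc hΦM]
  have h3 : ∫ s : ℝ, (π : ℂ) * (((Real.cosh (2 * s) - Real.cos a)⁻¹ : ℝ) : ℂ)
        * twTail75 Φ (Real.cosh (2 * s))
      = (π : ℂ) * ((1 / 2 : ℂ)
        * ∫ σ : ℝ, (Real.cosh σ - Real.cos a)⁻¹ • twTail75 Φ (Real.cosh σ)) := by
    have e := Measure.integral_comp_mul_left
      (fun σ : ℝ => (Real.cosh σ - Real.cos a)⁻¹ • twTail75 Φ (Real.cosh σ)) 2
    simp only [Complex.real_smul] at e ⊢
    rw [abs_of_pos (by norm_num : (0 : ℝ) < 2⁻¹)] at e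
    simp only [mul_assoc]
    rw [integral_const_mul, e]
    push_cast
    ring
  rw [h3]
  push_cast
  ring

/-- **The twisted elliptic orbital integral in Iwasawa coordinates**, order `(u₁, (u₂, w))`
(the order of `H189.iwaMC`). -/
theorem twEll_integral75 {a : ℝ} (ha : Real.cos a < 1) {Φ : ℝ → ℂ} (hΦc : Continuous Φ)
    {M : ℝ} (hΦM : VanishesAbove517 Φ M) {h : ℝ → ℝ} (hh : Continuous h)
    (hhc : HasCompactSupport h) :
    ∫ p : ℝ × ℝ × ℂ, Φ (twRho75 a (p.1 - p.2.1) (Complex.normSq p.2.2)) * (h (p.1 + p.2.1) : ℂ)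
      = ((π / 4 * ∫ y, h y : ℝ) : ℂ)
        * ∫ σ : ℝ, (Real.cosh σ - Real.cos a)⁻¹ • twTail75 Φ (Real.cosh σ) := by
  rw [← twEll_integral_aux75 ha hΦc hΦM hh hhc]
  have e1 : MeasurePreserving (MeasurableEquiv.prodComm : ℂ × (ℝ × ℝ) ≃ᵐ (ℝ × ℝ) × ℂ)
      (volume : Measure (ℂ × (ℝ × ℝ))) (volume : Measure ((ℝ × ℝ) × ℂ)) :=
    Measure.measurePreserving_swap
  have e2 : MeasurePreserving (MeasurableEquiv.prodAssoc : (ℝ × ℝ) × ℂ ≃ᵐ ℝ × (ℝ × ℂ))
      (volume : Measure ((ℝ × ℝ) × ℂ)) (volume : Measure (ℝ × (ℝ × ℂ))) :=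
    measurePreserving_prodAssoc volume volume volume
  have e3 := (e2.comp e1).integral_comp
    ((MeasurableEquiv.prodComm.trans MeasurableEquiv.prodAssoc :
      ℂ × (ℝ × ℝ) ≃ᵐ ℝ × (ℝ × ℂ)).measurableEmbedding)
    (fun p : ℝ × ℝ × ℂ =>
      Φ (twRho75 a (p.1 - p.2.1) (Complex.normSq p.2.2)) * (h (p.1 + p.2.1) : ℂ))
  rw [← e3]
  rfl

end Fermat.Agent.LT.T6.H75

end
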