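import Mathlib
import Fermat.Agent.LT.T6.H75.TwEllAlg
import Fermat.Agent.LT.T6.H75.TwEllInt

/-!
# Row LT, tower T6, leaf T6.26 `ArchHAK` -- the twisted elliptic orbital integral on `GL₂(ℂ)`
(owner helper75)

OFF-MAIN.  No hole, nothing assumed beyond the hypotheses written in the statements.

## The result

`twEllOrbital75`: let `μ'` be a Haar measure of `GL₂(ℂ)`, `κ` the Haar probability measure of `U(2)`
and `c` the constant of the Iwasawa integration formula `μ' = c • (iwaC)_* (du₁ du₂ dw dκ)`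
(`H189.IwasawaCC`).  Let `φ` be a function on `GL₂(ℂ)` with radial profile `Φ` on the elements of
determinant of absolute value `1` (`φ g = Φ (rhoC g)`; `Φ` continuous, zero above `M`), `h` a
continuous compactly supported cut-off on `ℝ` and `δ = k_{a/2}` the rotation of angle `a/2`
(so that `N δ = δ δ̄ = k_a`), `cos a < 1`.  Then

`∫ φ(x⁻¹ δ x̄) h(log |det x|) dμ'(x) = c · (π/4) (∫ h) · ∫_ℝ (cosh σ - cos a)⁻¹ Ψ(cosh σ) dσ`,
`Ψ(y) = ∫_{x > y} Φ(x) dx` (`twTail75 Φ`).

The right-hand side is, up to the constant, the elliptic side of `H517.radialMatch517`.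

## The proof (the "eigenbasis trick"; no Fermi coordinates, no `G = H A K` decomposition)

`g₀ = (1/√2) !![1, 1; -i, i] ∈ U(2)` diagonalises the rotations.  By left invariance we integrate
over `x = g₀ · diag(e^{u₁}, e^{u₂}) · n(w) · k`; for such `x` the radial coordinate of `x⁻¹ δ x̄` is
`twRho75 a (u₁ - u₂) |w|²` (`TwEllAlg.lean`) and `|det x| = e^{u₁ + u₂}`; the integral over
`(u₁, u₂, w)` is elementary (`TwEllInt.lean`).
-/

set_option autoImplicit false

open MeasureTheory Real Set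
open scoped Matrix ENNReal

noncomputable section

namespace Fermat.Agent.LT.T6.H75

open Fermat.Agent.LT.T6 Fermat.Agent.LT.T6.H189 Fermat.Agent.LT.T6.H517

/-! ## Continuity -/

theorem continuous_conjGL75 : Continuous (conjGL75 : GL (Fin 2) ℂ → GL (Fin 2) ℂ) := by
  unfold conjGL75 glAut Matrix.GeneralLinearGroup.map
  apply Continuous.units_map
  exact Continuous.matrix_map continuous_id Complex.continuous_conj

theorem continuous_rhoC75 : Continuous rhoC := by
  unfold rhoC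
  refine Continuous.div ?_ ?_ ?_
  · exact Complex.continuous_re.comp
      ((Units.continuous_val.matrix_conjTranspose.matrix_mul Units.continuous_val).matrix_trace)
  · exact continuous_const.mul (continuous_norm.comp Units.continuous_val.matrix_det)
  · intro y
    have := Matrix.GeneralLinearGroup.det_ne_zero y
    have h2 : 0 < ‖(y : Matrix (Fin 2) (Fin 2) ℂ).det‖ := norm_pos_iff.mpr this
    positivity

theorem continuous_log_norm_det75 :
    Continuous (fun x : GL (Fin 2) ℂ => Real.log ‖(x : Matrix (Fin 2) (Fin 2) ℂ).det‖) := by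
  refine Continuous.log (continuous_norm.comp Units.continuous_val.matrix_det) ?_
  intro y
  exact (norm_pos_iff.mpr (Matrix.GeneralLinearGroup.det_ne_zero y)).ne'

/-! ## Determinants -/

theorem det_rotC75 (θ : ℝ) : ((rotC75 θ : GL (Fin 2) ℂ) : Matrix (Fin 2) (Fin 2) ℂ).det = 1 := by
  rw [coe_rotC75, Matrix.det_fin_two_of]
  have h := Real.cos_sq_add_sin_sq θ
  have h2 : ((Real.cos θ : ℂ)) ^ 2 + ((Real.sin θ : ℂ)) ^ 2 = 1 := by exact_mod_cast h
  linear_combination h2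

theorem det_conjGL75 (x : GL (Fin 2) ℂ) :
    ((conjGL75 x : GL (Fin 2) ℂ) : Matrix (Fin 2) (Fin 2) ℂ).det
      = (starRingEnd ℂ) (x : Matrix (Fin 2) (Fin 2) ℂ).det := by
  rw [RingHom.map_det]
  rfl

/-- Every twisted conjugate of a rotation has a determinant of absolute value `1`. -/
theorem norm_det_twConj75 (θ : ℝ) (x : GL (Fin 2) ℂ) :
    ‖((x⁻¹ * rotC75 θ * conjGL75 x : GL (Fin 2) ℂ) : Matrix (Fin 2) (Fin 2) ℂ).det‖ = 1 := by
  have hx : (x : Matrix (Fin 2) (Fin 2) ℂ).det ≠ 0 := Matrix.GeneralLinearGroup.det_ne_zero x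
  have h1 : ((x⁻¹ : GL (Fin 2) ℂ) : Matrix (Fin 2) (Fin 2) ℂ).det
      * (x : Matrix (Fin 2) (Fin 2) ℂ).det = 1 := by
    rw [← Matrix.det_mul, ← Matrix.GeneralLinearGroup.coe_mul, inv_mul_cancel]
    simp
  have h2 : ‖((x⁻¹ : GL (Fin 2) ℂ) : Matrix (Fin 2) (Fin 2) ℂ).det‖
      * ‖(x : Matrix (Fin 2) (Fin 2) ℂ).det‖ = 1 := by
    rw [← norm_mul, h1, norm_one]
  rw [Matrix.GeneralLinearGroup.coe_mul, Matrix.GeneralLinearGroup.coe_mul, Matrix.det_mul,
    Matrix.det_mul, det_rotC75, det_conjGL75, mul_one, norm_mul, RCLike.norm_conj, h2]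

/-! ## The integrand in Iwasawa coordinates -/

/-- The integrand `G(u₁, u₂, w) = Φ(ρ(u₁ - u₂, |w|²)) h(u₁ + u₂)` is continuous. -/
theorem continuous_twInt75 (a : ℝ) {Φ : ℝ → ℂ} (hΦc : Continuous Φ) {h : ℝ → ℝ}
    (hh : Continuous h) :
    Continuous (fun q : ℝ × ℝ × ℂ =>
      Φ (twRho75 a (q.1 - q.2.1) (Complex.normSq q.2.2)) * (h (q.1 + q.2.1) : ℂ)) := by
  have h1 : Continuous (fun q : ℝ × ℝ × ℂ => twRho75 a (q.1 - q.2.1) (Complex.normSq q.2.2)) := by
    have := (continuous_twRho75 a).comp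
      (((continuous_fst.sub (continuous_fst.comp continuous_snd)).prodMk
        (Complex.continuous_normSq.comp (continuous_snd.comp continuous_snd))) :
        Continuous (fun q : ℝ × ℝ × ℂ => (q.1 - q.2.1, Complex.normSq q.2.2)))
    exact this
  exact (hΦc.comp h1).mul
    (Complex.continuous_ofReal.comp (hh.comp (continuous_fst.add (continuous_fst.comp continuous_snd))))

/-! ## The orbital integral -/

/-- The twisted elliptic orbital integral, for any Borel structure on `GL₂(ℂ)`. -/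
theorem twEllOrbital_aux75 [MeasurableSpace (GL (Fin 2) ℂ)] [BorelSpace (GL (Fin 2) ℂ)]
    (κ : Measure (GL (Fin 2) ℂ)) (hκ1 : κ Set.univ = 1) (hκ2 : κ U2ᶜ = 0)
    (μ' : Measure (GL (Fin 2) ℂ)) [μ'.IsHaarMeasure] (c : ℝ≥0∞)
    (hIw : μ' = c • Measure.map iwaC
      ((volume : Measure ℝ).prod ((volume : Measure ℝ).prod ((volume : Measure ℂ).prod κ))))
    {φ : GL (Fin 2) ℂ → ℂ} {Φ : ℝ → ℂ} (hΦc : Continuous Φ) {M : ℝ}
    (hΦM : VanishesAbove517 Φ M)
    (hφ : ∀ g : GL (Fin 2) ℂ, ‖(g : Matrix (Fin 2) (Fin 2) ℂ).det‖ = 1 → φ g = Φ (rhoC g))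
    {h : ℝ → ℝ} (hh : Continuous h) (hhc : HasCompactSupport h) {a : ℝ}
    (ha : Real.cos a < 1) :
    ∫ x : GL (Fin 2) ℂ, φ (x⁻¹ * rotC75 (a / 2) * conjGL75 x)
        * (h (Real.log ‖(x : Matrix (Fin 2) (Fin 2) ℂ).det‖) : ℂ) ∂μ'
      = ((c.toReal * (π / 4 * ∫ y, h y) : ℝ) : ℂ)
          * ∫ σ : ℝ, (Real.cosh σ - Real.cos a)⁻¹ • twTail75 Φ (Real.cosh σ) := by
  classical
  have : IsProbabilityMeasure κ := ⟨hκ1⟩
  set ν : Measure (ℝ × ℝ × ℂ × GL (Fin 2) ℂ) :=
    (volume : Measure ℝ).prod ((volume : Measure ℝ).prod ((volume : Measure ℂ).prod κ)) with hν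
  -- the continuous integrand
  set F : GL (Fin 2) ℂ → ℂ := fun x =>
    Φ (rhoC (x⁻¹ * rotC75 (a / 2) * conjGL75 x))
      * (h (Real.log ‖(x : Matrix (Fin 2) (Fin 2) ℂ).det‖) : ℂ) with hF
  have hFc : Continuous F := by
    have h1 : Continuous (fun x : GL (Fin 2) ℂ => x⁻¹ * rotC75 (a / 2) * conjGL75 x) :=
      (continuous_id.inv.mul continuous_const).mul continuous_conjGL75
    exact (hΦc.comp (continuous_rhoC75.comp h1)).mul
      (Complex.continuous_ofReal.comp (hh.comp continuous_log_norm_det75))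
  have h1 : (fun x : GL (Fin 2) ℂ => φ (x⁻¹ * rotC75 (a / 2) * conjGL75 x)
      * (h (Real.log ‖(x : Matrix (Fin 2) (Fin 2) ℂ).det‖) : ℂ)) = F := by
    funext x
    simp only [hF]
    rw [hφ _ (norm_det_twConj75 _ _)]
  rw [h1]
  -- left translation by `g₀`
  rw [← integral_mul_left_eq_self F g0GL75]
  -- the Iwasawa parametrisation is a.e. measurable
  have hne : μ' ≠ 0 := NeZero.ne μ'
  have hiw : AEMeasurable iwaC ν := by
    by_contra hcon
    apply hne
    rw [hIw, Measure.map_of_not_aemeasurable hcon, smul_zero]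
  have hFg : Continuous (fun x : GL (Fin 2) ℂ => F (g0GL75 * x)) :=
    hFc.comp (continuous_const.mul continuous_id)
  rw [hIw, integral_smul_measure, integral_map hiw hFg.aestronglyMeasurable]
  -- a.e. rewriting
  have hae : ∀ᵐ p ∂ν, F (g0GL75 * iwaC p)
      = Φ (twRho75 a (p.1 - p.2.1) (Complex.normSq p.2.2.1)) * (h (p.1 + p.2.1) : ℂ) := by
    have hnull : ν {p | p.2.2.2 ∈ U2ᶜ} = 0 := by
      have hs : {p : ℝ × ℝ × ℂ × GL (Fin 2) ℂ | p.2.2.2 ∈ U2ᶜ}
          = Set.univ ×ˢ (Set.univ ×ˢ (Set.univ ×ˢ U2ᶜ)) := by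
        ext p
        simp
      rw [hs, hν, Measure.prod_prod, Measure.prod_prod, Measure.prod_prod, hκ2]
      simp
    filter_upwards [measure_eq_zero_iff_ae_notMem.mp hnull] with p hp
    have hk : InU2 p.2.2.2 := by
      by_contra hcon
      exact hp hcon
    have e : g0GL75 * iwaC p = twPt75 p.1 p.2.1 p.2.2.1 * p.2.2.2 := by
      simp only [iwaC, twPt75, mul_assoc]
    simp only [hF]
    rw [e, twEll_rhoC_full75 a _ _ _ hk, norm_det_twPt75 _ _ _ hk, Real.log_exp]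
  rw [integral_congr_ae hae]
  -- forget `k`
  have hπ : Measurable (fun p : ℝ × ℝ × ℂ × GL (Fin 2) ℂ => (p.1, p.2.1, p.2.2.1)) := by
    fun_prop
  have hmap : Measure.map (fun p : ℝ × ℝ × ℂ × GL (Fin 2) ℂ => (p.1, p.2.1, p.2.2.1)) ν
      = (volume : Measure (ℝ × ℝ × ℂ)) := by
    have e1 : (fun p : ℝ × ℝ × ℂ × GL (Fin 2) ℂ => (p.1, p.2.1, p.2.2.1))
        = Prod.map id (Prod.map id Prod.fst) := rfl
    have e2 : Measure.map (Prod.fst : ℂ × GL (Fin 2) ℂ → ℂ) ((volume : Measure ℂ).prod κ)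
        = (volume : Measure ℂ) := by
      rw [Measure.map_fst_prod, hκ1, one_smul]
    rw [e1, hν, ← Measure.map_prod_map _ _ measurable_id (measurable_id.prodMap measurable_fst),
      ← Measure.map_prod_map _ _ measurable_id measurable_fst, e2, Measure.map_id]
    rfl
  have hG := continuous_twInt75 a hΦc hh
  have h3 := integral_map (μ := ν) hπ.aemeasurable hG.aestronglyMeasurable
  rw [hmap] at h3
  rw [← h3, twEll_integral75 ha hΦc hΦM hh hhc, Complex.real_smul]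
  push_cast
  ring

/-- **T6.26: the twisted elliptic orbital integral on `GL₂(ℂ)`**, in the conventions of
`T6/SpecArch.lean` and `H189/ArchIntSpec.lean` (`κ`, `μ'`, `c` as in `H189.IwasawaCC`). -/
theorem twEllOrbital75
    (κ : @Measure (GL (Fin 2) ℂ) (borel _)) (hκ : IsU2Haar κ)
    (μ' : @Measure (GL (Fin 2) ℂ) (borel _)) (hμ' : @Measure.IsHaarMeasure _ _ _ (borel _) μ')
    (c : ℝ≥0∞)
    (hIw : μ' = c • @Measure.map _ _
        (@Prod.instMeasurableSpace _ _ _ (@Prod.instMeasurableSpace _ _ _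
          (@Prod.instMeasurableSpace _ _ _ (borel _)))) (borel _) iwaC (iwaMC κ))
    {φ : GL (Fin 2) ℂ → ℂ} {Φ : ℝ → ℂ} (hΦc : Continuous Φ) {M : ℝ}
    (hΦM : VanishesAbove517 Φ M)
    (hφ : ∀ g : GL (Fin 2) ℂ, ‖(g : Matrix (Fin 2) (Fin 2) ℂ).det‖ = 1 → φ g = Φ (rhoC g))
    {h : ℝ → ℝ} (hh : Continuous h) (hhc : HasCompactSupport h) {a : ℝ}
    (ha : Real.cos a < 1) :
    @integral _ _ _ _ (borel _) μ' (fun x : GL (Fin 2) ℂ =>
        φ (x⁻¹ * rotC75 (a / 2) * glAut (starRingAut : ℂ ≃+* ℂ) x)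
          * (h (Real.log ‖(x : Matrix (Fin 2) (Fin 2) ℂ).det‖) : ℂ))
      = ((c.toReal * (π / 4 * ∫ y, h y) : ℝ) : ℂ)
          * ∫ σ : ℝ, (Real.cosh σ - Real.cos a)⁻¹ • twTail75 Φ (Real.cosh σ) :=
  @twEllOrbital_aux75 (borel (GL (Fin 2) ℂ)) (@BorelSpace.mk _ _ (borel _) rfl) κ hκ.prob hκ.supp
    μ' hμ' c hIw φ Φ hΦc M hΦM hφ h hh hhc a ha

end Fermat.Agent.LT.T6.H75

end
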