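import Mathlib
import Fermat.Agent.LT.T6.H75.TwEll
import Fermat.Agent.LT.T6.H75.EllTwSpec

/-!
# Row LT, tower T6, leaf T6.20e.2e (`H634.EllTwC634`): THE TOP of the cut (helper75)

OFF-MAIN.  No hole, nothing assumed beyond the hypotheses written in the statements.

`ellTwTop75 : EllTwTopC75`, i.e.

    CutIndepC75 → TorNormC75 → TwStdC75 → TorCommC75 → ProfC75 → BoxCC75 → H781.EllUpC →
      H189.ArchIntOut → H634.EllTwC634

from the core `twEllOrbital75` (`H75/TwEll.lean`).  Route: header of `H75/EllTwSpec.lean`.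
-/

set_option autoImplicit false

open MeasureTheory Real Set
open scoped Matrix ENNReal

noncomputable section

namespace Fermat.Agent.LT.T6.H75

open Fermat.Agent.LT.T6 Fermat.Agent.LT.T6.H189 Fermat.Agent.LT.T6.H517
open Fermat.Agent.LT.T6.H634 Fermat.Agent.LT.T6.H781

/-! ## Small facts -/

/-- `∫ f(|x|) dx = 2 ∫_{x>0} f(x) dx` for complex-valued functions (no integrability
hypothesis). -/
theorem integral_comp_abs75 {f : ℝ → ℂ} :
    ∫ x, f |x| = 2 * ∫ x in Ioi (0 : ℝ), f x := by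
  have eq : ∫ (x : ℝ) in Ioi 0, f |x| = ∫ (x : ℝ) in Ioi 0, f x := by
    refine setIntegral_congr_fun measurableSet_Ioi (fun _ hx => ?_)
    rw [abs_eq_self.mpr (le_of_lt (by exact hx))]
  by_cases hf : IntegrableOn (fun x => f |x|) (Ioi 0)
  · have int_Iic : IntegrableOn (fun x ↦ f |x|) (Iic 0) := by
      rw [← Measure.map_neg_eq_self (volume : Measure ℝ)]
      let m : MeasurableEmbedding fun x : ℝ => -x := (Homeomorph.neg ℝ).measurableEmbedding
      rw [m.integrableOn_map_iff]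
      simp_rw [Function.comp_def, abs_neg, neg_preimage, neg_Iic, neg_zero]
      exact Iff.mpr integrableOn_Ici_iff_integrableOn_Ioi hf
    calc
      _ = (∫ x in Iic 0, f |x|) + ∫ x in Ioi 0, f |x| := by
        rw [← setIntegral_union (Iic_disjoint_Ioi le_rfl) measurableSet_Ioi int_Iic hf,
          Iic_union_Ioi, Measure.restrict_univ]
      _ = 2 * ∫ x in Ioi 0, f x := by
        rw [two_mul, eq]
        congr! 1
        rw [← neg_zero, ← integral_comp_neg_Iic, neg_zero]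
        refine setIntegral_congr_fun measurableSet_Iic (fun _ hx => ?_)
        rw [abs_eq_neg_self.mpr (by exact hx)]
  · have : ¬ Integrable (fun x => f |x|) := by
      contrapose hf
      exact hf.integrableOn
    rw [← eq, integral_undef hf, integral_undef this, mul_zero]

/-- `rhoC ≥ 1`. -/
theorem one_le_rhoC75 (g : GL (Fin 2) ℂ) : 1 ≤ rhoC g := by
  have hdet : (g : Matrix (Fin 2) (Fin 2) ℂ).det ≠ 0 := Matrix.GeneralLinearGroup.det_ne_zero g
  have hpos : 0 < ‖(g : Matrix (Fin 2) (Fin 2) ℂ).det‖ := norm_pos_iff.mpr hdet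
  rw [rhoC_eq75 g rfl, le_div_iff₀ (by positivity), one_mul]
  set M := (g : Matrix (Fin 2) (Fin 2) ℂ) with hM
  have h1 : ‖M.det‖ ≤ ‖M 0 0‖ * ‖M 1 1‖ + ‖M 0 1‖ * ‖M 1 0‖ := by
    rw [Matrix.det_fin_two]
    calc ‖M 0 0 * M 1 1 - M 0 1 * M 1 0‖ ≤ ‖M 0 0 * M 1 1‖ + ‖M 0 1 * M 1 0‖ := norm_sub_le _ _
      _ = ‖M 0 0‖ * ‖M 1 1‖ + ‖M 0 1‖ * ‖M 1 0‖ := by rw [norm_mul, norm_mul]
  simp only [Complex.normSq_eq_norm_sq]
  nlinarith [sq_nonneg (‖M 0 0‖ - ‖M 1 1‖), sq_nonneg (‖M 0 1‖ - ‖M 1 0‖)]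

/-- The positive real scalars are central in `GL₂(ℂ)`. -/
theorem sclC_mul_comm75 (r : ℝ) (g : GL (Fin 2) ℂ) : sclC r * g = g * sclC r := by
  apply Units.ext
  rw [Units.val_mul, Units.val_mul]
  ext i j
  fin_cases i <;> fin_cases j <;>
    simp [sclC, dgC, Matrix.mul_apply, Fin.sum_univ_two, mul_comm]

/-- The complex conjugation fixes the real matrices. -/
theorem conjGL_map75 (t : GL (Fin 2) ℝ) :
    glAut (starRingAut : ℂ ≃+* ℂ) (Matrix.GeneralLinearGroup.map (algebraMap ℝ ℂ) t)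
      = Matrix.GeneralLinearGroup.map (algebraMap ℝ ℂ) t := by
  apply Units.ext
  ext i j
  simp [glAut]

/-- `|det (map t)| = |det t|`. -/
theorem norm_det_map75 (t : GL (Fin 2) ℝ) :
    ‖((Matrix.GeneralLinearGroup.map (algebraMap ℝ ℂ) t : GL (Fin 2) ℂ) :
      Matrix (Fin 2) (Fin 2) ℂ).det‖ = |(t : Matrix (Fin 2) (Fin 2) ℝ).det| := by
  have : ((Matrix.GeneralLinearGroup.map (algebraMap ℝ ℂ) t : GL (Fin 2) ℂ) :
      Matrix (Fin 2) (Fin 2) ℂ).det = (((t : Matrix (Fin 2) (Fin 2) ℝ).det : ℝ) : ℂ) := by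
    rw [Matrix.det_fin_two, Matrix.det_fin_two]
    simp
  rw [this, Complex.norm_real, Real.norm_eq_abs]

/-- The tent function. -/
def tent75 (u : ℝ) : ℝ := max 0 (1 - |u|)

theorem continuous_tent75 : Continuous tent75 := by
  unfold tent75
  fun_prop

theorem tent_nonneg75 (u : ℝ) : 0 ≤ tent75 u := le_max_left _ _

theorem tent_eq_zero75 {u : ℝ} (hu : 1 ≤ |u|) : tent75 u = 0 := by
  unfold tent75
  exact max_eq_left (by linarith)

theorem hasCompactSupport_tent75 : HasCompactSupport tent75 := by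
  refine HasCompactSupport.intro (isCompact_Icc (a := (-1 : ℝ)) (b := 1)) ?_
  intro u hu
  apply tent_eq_zero75
  by_contra hcon
  rw [not_le] at hcon
  exact hu ⟨(abs_lt.mp hcon).1.le, (abs_lt.mp hcon).2.le⟩

theorem integral_tent75 : ∫ u, tent75 u = 1 := by
  have key : ∫ u, tent75 u = 2 * ∫ v in Ioi (0 : ℝ), max 0 (1 - v) :=
    integral_comp_abs (f := fun v : ℝ => max 0 (1 - v))
  rw [key]
  have h1 : ∫ v in Ioi (0 : ℝ), max 0 (1 - v) = ∫ v in (0 : ℝ)..1, (1 - v) := by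
    rw [intervalIntegral.integral_of_le zero_le_one,
      ← integral_indicator measurableSet_Ioi, ← integral_indicator measurableSet_Ioc]
    congr 1
    funext v
    by_cases hv : v ∈ Ioi (0 : ℝ)
    · by_cases hv1 : v ≤ 1
      · rw [indicator_of_mem hv, indicator_of_mem (show v ∈ Ioc (0 : ℝ) 1 from ⟨hv, hv1⟩)]
        exact max_eq_right (by linarith)
      · rw [indicator_of_mem hv, indicator_of_notMem (fun h => hv1 h.2)]
        exact max_eq_left (by linarith [not_le.mp hv1])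
    · rw [indicator_of_notMem hv, indicator_of_notMem (fun h => hv h.1)]
  rw [h1, intervalIntegral.integral_sub (by simp) (by simp)]
  simp [integral_id]
  norm_num

/-- Left invariance of a Haar measure of `GL₂(ℂ)` (Borel σ-algebra passed explicitly). -/
theorem integral_mul_left_borel75 (μ' : @Measure (GL (Fin 2) ℂ) (borel _))
    (hμ' : @Measure.IsHaarMeasure _ _ _ (borel _) μ') (G : GL (Fin 2) ℂ → ℂ)
    (y : GL (Fin 2) ℂ) :
    @integral _ _ _ _ (borel _) μ' (fun x => G (y * x)) = @integral _ _ _ _ (borel _) μ' G := by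
  let _ : MeasurableSpace (GL (Fin 2) ℂ) := borel _
  have : BorelSpace (GL (Fin 2) ℂ) := ⟨rfl⟩
  have : μ'.IsHaarMeasure := hμ'
  exact integral_mul_left_eq_self G y

/-- The integral over `ℝ` of the elliptic kernel is twice `ellKer`. -/
theorem integral_ellKer75 (Ψ : ℝ → ℂ) (θ : ℝ) :
    ∫ σ : ℝ, (Real.cosh σ - Real.cos θ)⁻¹ • Ψ (Real.cosh σ) = 2 * ellKer Ψ θ := by
  have h := integral_comp_abs75
    (f := fun v : ℝ => (Real.cosh v - Real.cos θ)⁻¹ • Ψ (Real.cosh v))
  simp only [Real.cosh_abs] at h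
  rw [h]
  congr 1
  unfold ellKer
  refine setIntegral_congr_fun measurableSet_Ioi (fun v _ => ?_)
  simp only [Complex.real_smul, Complex.ofReal_inv]
  rw [div_eq_mul_inv, mul_comm]

/-! ## The top -/

/-- **THE TOP of the cut of `EllTwC634`.** -/
theorem ellTwTop75 : EllTwTopC75 := by
  intro h1 h2 h3a h3b h4 h5 h6 hInt μ' hμ' φ hφ γ hdisc μT hμT δ hδ β' hβ'c hβ'0 hβ'1
  -- the data
  obtain ⟨κ, hκ⟩ := hInt.haarU
  obtain ⟨c, hc0, hctop, hIw⟩ := hInt.iwaC κ hκ μ' hμ'
  have hD := det_pos_of_disc_neg634 γ hdisc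
  have hsin := sin_thetaOf_ne_zero634 γ hdisc
  obtain ⟨hlam, hT⟩ := h2 γ hdisc μT hμT
  obtain ⟨y, hy⟩ := h3a γ hdisc δ hδ
  obtain ⟨hprof, hΦ⟩ := h4 φ hφ _ hD
  have hbox := h5 κ hκ μ' c hIw
  set D : ℝ := (γ : Matrix (Fin 2) (Fin 2) ℝ).det with hDdef
  set θ : ℝ := thetaOf634 γ with hθdef
  set lam : ℝ := lamT634 γ μT with hlamdef
  have hcos : Real.cos θ < 1 := by
    rcases (Real.cos_le_one θ).lt_or_eq with h | h
    · exact h
    · exfalso
      have := Real.sin_sq_add_cos_sq θ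
      rw [h] at this
      have h0 : Real.sin θ ^ 2 = 0 := by linarith
      exact hsin ((pow_eq_zero_iff (two_ne_zero)).mp h0)
  have hpl : 0 < Real.pi * lam := mul_pos Real.pi_pos hlam
  -- the function `F`
  set F : GL (Fin 2) ℂ → ℂ := fun x => φ (x⁻¹ * δ * glAut (starRingAut : ℂ ≃+* ℂ) x) with hF
  have hFc : Continuous F := by
    have h1 : Continuous (fun x : GL (Fin 2) ℂ => x⁻¹ * δ * glAut (starRingAut : ℂ ≃+* ℂ) x) :=
      (continuous_id.inv.mul continuous_const).mul continuous_conjGL75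
    exact hφ.cont.comp h1
  have hFinv : ∀ (t : twCentSub (MonoidHom.id (GL (Fin 2) ℝ)) γ) (x : GL (Fin 2) ℂ),
      F (Matrix.GeneralLinearGroup.map (algebraMap ℝ ℂ) (t : GL (Fin 2) ℝ) * x) = F x := by
    intro t x
    simp only [hF]
    congr 1
    rw [map_mul, conjGL_map75, mul_inv_rev]
    have hcomm := h3b γ hdisc δ hδ t
    calc x⁻¹ * (Matrix.GeneralLinearGroup.map (algebraMap ℝ ℂ) (t : GL (Fin 2) ℝ))⁻¹ * δ *
          (Matrix.GeneralLinearGroup.map (algebraMap ℝ ℂ) (t : GL (Fin 2) ℝ) *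
            glAut (starRingAut : ℂ ≃+* ℂ) x)
        = x⁻¹ * ((Matrix.GeneralLinearGroup.map (algebraMap ℝ ℂ) (t : GL (Fin 2) ℝ))⁻¹ *
            (δ * Matrix.GeneralLinearGroup.map (algebraMap ℝ ℂ) (t : GL (Fin 2) ℝ))) *
            glAut (starRingAut : ℂ ≃+* ℂ) x := by simp only [mul_assoc]
      _ = x⁻¹ * δ * glAut (starRingAut : ℂ ≃+* ℂ) x := by
        rw [← hcomm, inv_mul_cancel_left]
  -- the cut-off `β₀`
  set h : ℝ → ℝ := fun u => tent75 u / (Real.pi * lam) with hh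
  have hhc : Continuous h := continuous_tent75.div_const _
  have hhs : HasCompactSupport h := by
    refine HasCompactSupport.intro (isCompact_Icc (a := (-1 : ℝ)) (b := 1)) ?_
    intro u hu
    have : tent75 u = 0 := by
      apply tent_eq_zero75
      by_contra hcon
      rw [not_le] at hcon
      exact hu ⟨(abs_lt.mp hcon).1.le, (abs_lt.mp hcon).2.le⟩
    simp only [hh, this, zero_div]
  have hhI : ∫ u, h u = 1 / (Real.pi * lam) := by
    simp only [hh]
    rw [integral_div, integral_tent75]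
  set s₀ : ℝ := -Real.log ‖(y : Matrix (Fin 2) (Fin 2) ℂ).det‖ with hs₀
  set β₀ : GL (Fin 2) ℂ → ℝ :=
    fun x => h (Real.log ‖(x : Matrix (Fin 2) (Fin 2) ℂ).det‖ + s₀) with hβ₀
  have hβ₀c : Continuous β₀ := hhc.comp (continuous_log_norm_det75.add continuous_const)
  have hβ₀0 : ∀ x, 0 ≤ β₀ x := fun x => div_nonneg (tent_nonneg75 _) hpl.le
  have hβ₀1 : ∀ x : GL (Fin 2) ℂ,
      @integral _ _ _ _ (borel _) μT
        (fun t : twCentSub (MonoidHom.id (GL (Fin 2) ℝ)) γ =>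
          β₀ (Matrix.GeneralLinearGroup.map (algebraMap ℝ ℂ) (t : GL (Fin 2) ℝ) * x)) = 1 := by
    intro x
    have e : (fun t : twCentSub (MonoidHom.id (GL (Fin 2) ℝ)) γ =>
          β₀ (Matrix.GeneralLinearGroup.map (algebraMap ℝ ℂ) (t : GL (Fin 2) ℝ) * x))
        = fun t : twCentSub (MonoidHom.id (GL (Fin 2) ℝ)) γ =>
          h (Real.log ((t : GL (Fin 2) ℝ) : Matrix (Fin 2) (Fin 2) ℝ).det
            + (Real.log ‖(x : Matrix (Fin 2) (Fin 2) ℂ).det‖ + s₀)) := by
      funext t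
      simp only [hβ₀]
      congr 1
      rw [Matrix.GeneralLinearGroup.coe_mul, Matrix.det_mul, norm_mul, norm_det_map75,
        Real.log_mul (abs_ne_zero.mpr (Matrix.GeneralLinearGroup.det_ne_zero _))
          (norm_ne_zero_iff.mpr (Matrix.GeneralLinearGroup.det_ne_zero _)), Real.log_abs]
      ring_nf
    rw [e, hT h hhc hhs, hhI]
    field_simp
  -- independence of the cut-off
  rw [h1 μ' hμ' γ hdisc μT hμT F hFc hFinv β' β₀ hβ'c hβ'0 hβ'1 hβ₀c hβ₀0 hβ₀1]
  -- left translation by `y`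
  rw [← integral_mul_left_borel75 μ' hμ' (fun x => F x * (β₀ x : ℂ)) y]
  -- the radial profile
  set Φ : ℝ → ℂ := fun ρ => profC634 φ D (max ρ 1) with hΦdef
  have hΦc : Continuous Φ := by
    refine hprof.1.comp_continuous (continuous_id.max continuous_const) ?_
    intro ρ
    exact Set.mem_Ici.mpr (le_max_right ρ 1)
  obtain ⟨R, hR⟩ := hprof.2
  have hΦM : VanishesAbove517 Φ R := by
    intro x hx
    exact hR _ (le_trans hx (le_max_left _ _))
  have hφz : ∀ g : GL (Fin 2) ℂ, ‖(g : Matrix (Fin 2) (Fin 2) ℂ).det‖ = 1 →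
      (fun g => φ (sclC (Real.log D / 4) * g)) g = Φ (rhoC g) := by
    intro g hg
    simp only [hΦdef]
    rw [max_eq_left (one_le_rhoC75 g)]
    exact hΦ g hg
  have key := twEllOrbital75 κ hκ μ' hμ' c hIw (φ := fun g => φ (sclC (Real.log D / 4) * g))
    hΦc hΦM hφz hhc hhs hcos
  have e2 : (fun x : GL (Fin 2) ℂ => (fun x => F x * (β₀ x : ℂ)) (y * x))
      = fun x : GL (Fin 2) ℂ =>
        (fun g => φ (sclC (Real.log D / 4) * g))
          (x⁻¹ * rotC75 (θ / 2) * glAut (starRingAut : ℂ ≃+* ℂ) x)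
          * (h (Real.log ‖(x : Matrix (Fin 2) (Fin 2) ℂ).det‖) : ℂ) := by
    funext x
    simp only [hF, hβ₀]
    congr 2
    · rw [map_mul, mul_inv_rev]
      calc x⁻¹ * y⁻¹ * δ * (glAut (starRingAut : ℂ ≃+* ℂ) y * glAut (starRingAut : ℂ ≃+* ℂ) x)
          = x⁻¹ * (y⁻¹ * δ * glAut (starRingAut : ℂ ≃+* ℂ) y)
              * glAut (starRingAut : ℂ ≃+* ℂ) x := by simp only [mul_assoc]
        _ = sclC (Real.log D / 4) *
              (x⁻¹ * rotC75 (θ / 2) * glAut (starRingAut : ℂ ≃+* ℂ) x) := by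
          rw [hy]
          have hc := sclC_mul_comm75 (Real.log D / 4) x⁻¹
          unfold rotC75
          rw [← mul_assoc x⁻¹, ← hc]
          simp only [mul_assoc]
    · rw [Matrix.GeneralLinearGroup.coe_mul, Matrix.det_mul, norm_mul,
        Real.log_mul (norm_ne_zero_iff.mpr (Matrix.GeneralLinearGroup.det_ne_zero _))
          (norm_ne_zero_iff.mpr (Matrix.GeneralLinearGroup.det_ne_zero _))]
      simp only [hs₀]
      ring_nf
  rw [e2, key, hhI, integral_ellKer75]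
  -- the tail of `Φ` is the tail of the profile on `[1, ∞)`
  have htail : ellKer (twTail75 Φ) θ = ellKer (tailI (profC634 φ D)) θ := by
    unfold ellKer
    refine setIntegral_congr_fun measurableSet_Ioi (fun v _ => ?_)
    congr 1
    unfold twTail75 tailI
    refine setIntegral_congr_fun measurableSet_Ioi (fun x hx => ?_)
    simp only [hΦdef]
    rw [max_eq_left]
    exact le_trans (Real.one_le_cosh v) (le_of_lt hx)
  rw [htail, h6 (profC634 φ D) hprof θ hsin]
  -- the constants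
  have hcC : cC634 μ' = c.toReal := by
    unfold cC634
    rw [hbox, ENNReal.toReal_mul, ENNReal.toReal_ofReal Real.pi_pos.le]
    field_simp
  rw [hcC]
  have hpi : ((Real.pi : ℝ) : ℂ) ≠ 0 := by exact_mod_cast Real.pi_ne_zero
  have hlamC : ((lam : ℝ) : ℂ) ≠ 0 := by exact_mod_cast hlam.ne'
  push_cast
  field_simp
  ring

end Fermat.Agent.LT.T6.H75

end
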