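import Mathlib
import Fermat.Agent.LT.T6.H75.EllTwTop
import Fermat.Agent.LT.T6.H75.CutIndep
import Fermat.Agent.LT.T6.H967.TorNorm
import Fermat.Agent.LT.T6.H379.TwStd
import Fermat.Agent.LT.T6.H820.TorComm
import Fermat.Agent.LT.T6.H771.Prof
import Fermat.Agent.LT.T6.H142.BoxC
import Fermat.Agent.LT.T6.H559.EllUpC
import Fermat.Agent.LT.T6.H189.ArchIntClosed

/-!
# Row LT, tower T6, leaf T6.20e.2e: `H634.EllTwC634` CLOSED, UNCONDITIONAL (integrator helper75)

OFF-MAIN.  No hole, nothing assumed.  ONE closure (byte-identical copies of the leaves):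

* core `twEllOrbital75` and top `ellTwTop75` (helper75, `H75/TwEll*.lean`, `H75/EllTwTop.lean`);
* `cutIndepC75` (helper75, `H75/CutIndep.lean`; spares: helper533, helper228);
* `torNormC967` (helper967), `twStdC379` (helper379), `torCommC820` (helper820),
  `profC771` (helper771), `boxCC142` (helper142);
* `ellUpC559 : H781.EllUpC` (helper559), `archIntOut189 : H189.ArchIntOut` (helper189).
-/

set_option autoImplicit false

namespace Fermat.Agent.LT.T6.H75

open Fermat.Agent.LT.T6

/-- **T6.20e.2e: the twisted elliptic orbital integral on `GL₂(ℂ)`, final form** (VERBATIM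
`H634.EllTwC634`, unconditional). -/
theorem ellTwC634_75 : H634.EllTwC634 :=
  ellTwTop75 cutIndepC75 H967.torNormC967 H379.twStdC379 H820.torCommC820 H771.profC771
    H142.boxCC142 H559.ellUpC559 H189.archIntOut189

/-- The form used by the top `H634.ellValue_of634` (`hT`). -/
theorem ellTwC634_of_archInt75 : H189.ArchIntOut → H634.EllTwC634 := fun _ => ellTwC634_75

end Fermat.Agent.LT.T6.H75
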